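import Mathlib

/-!
# S26 / block AMPLE, leaf UFD, piece U3 (helper925): descent of unique factorisation along a
formal chart

`τ : R → S` is a *formal chart* of noetherian local rings if `τ⁻¹ (𝔪_S ^ n) = 𝔪_R ^ n` for all
`n` and the image of `τ` is dense for the `𝔪_S`-adic topology.  If `S` is a UFD then so is `R`
(Shafarevich, Basic Algebraic Geometry I, II.3.1; no flatness, no completion functor).

Main results, with the two chart conditions as explicit hypotheses `hcomap`, `hdense`:
* `mem_of_forall_mem_sup_pow` : ideals of a noetherian local ring are closed;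
* `chart_injective`, `comap_map_eq` (every ideal of `R` is contracted), `map_pow_eq`;
* `exists_reduced_pair` : gcd's descend;
* `prime_of_irreducible`;
* `ufd_of_chart` : `IsDomain R ∧ UniqueFactorizationMonoid R` (unbundled hypotheses);
* `ufd_of_isFormalChart` : the skeleton statement U3, for the structure `IsFormalChart`;
* `isPrincipal_of_height_eq_one_of_ufd` : height-one primes of a UFD are principal (for U4).
-/

set_option autoImplicit false
set_option linter.unusedSectionVars false

universe u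

open IsLocalRing

namespace Fermat.Agent.S26.H925

section Closed

variable {A : Type u} [CommRing A] [IsLocalRing A] [IsNoetherianRing A]

/-- Ideals of a noetherian local ring are closed in the adic topology. -/
theorem mem_of_forall_mem_sup_pow (J : Ideal A) (x : A)
    (h : ∀ n : ℕ, x ∈ J ⊔ maximalIdeal A ^ n) : x ∈ J := by
  have key : (Ideal.Quotient.mk J x : A ⧸ J) ∈
      (⨅ i : ℕ, (maximalIdeal A) ^ i • ⊤ : Submodule A (A ⧸ J)) := by
    rw [Submodule.mem_iInf]
    intro n
    obtain ⟨y, hy, z, hz, hyz⟩ := Submodule.mem_sup.1 (h n)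
    have : (Ideal.Quotient.mk J x : A ⧸ J) = z • (1 : A ⧸ J) := by
      rw [← hyz, map_add, Ideal.Quotient.eq_zero_iff_mem.2 hy, zero_add, Algebra.smul_def,
        mul_one]
      rfl
    rw [this]
    exact Submodule.smul_mem_smul hz Submodule.mem_top
  rw [Ideal.iInf_pow_smul_eq_bot_of_isLocalRing _ (maximalIdeal.isMaximal A).ne_top] at key
  exact Ideal.Quotient.eq_zero_iff_mem.1 ((Submodule.mem_bot A).1 key)

/-- A nonzero element of a noetherian local ring lies outside some power of the maximal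
ideal. -/
theorem exists_notMem_pow {x : A} (hx : x ≠ 0) : ∃ n : ℕ, x ∉ maximalIdeal A ^ n := by
  by_contra hcon
  have : x ∈ (⨅ i : ℕ, maximalIdeal A ^ i) := by
    rw [Ideal.mem_iInf]
    intro n
    by_contra hn
    exact hcon ⟨n, hn⟩
  rw [Ideal.iInf_pow_eq_bot_of_isLocalRing _ (maximalIdeal.isMaximal A).ne_top,
    Ideal.mem_bot] at this
  exact hx this

end Closed

section Chart

variable {R S : Type u} [CommRing R] [CommRing S] [IsLocalRing R] [IsLocalRing S]
  [IsNoetherianRing R] [IsNoetherianRing S] (τ : R →+* S)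

/-- A formal chart is injective (Krull's intersection theorem). -/
theorem chart_injective
    (hcomap : ∀ n : ℕ, (maximalIdeal S ^ n).comap τ = maximalIdeal R ^ n) :
    Function.Injective τ := by
  rw [injective_iff_map_eq_zero]
  intro r hr
  by_contra hr0
  obtain ⟨n, hn⟩ := exists_notMem_pow hr0
  apply hn
  rw [← hcomap n, Ideal.mem_comap, hr]
  exact zero_mem _

/-- The closure of the image of an ideal `I` of `R`, as an ideal of `S`. -/
def closureIdeal (hdense : ∀ (n : ℕ) (s : S), ∃ r : R, s - τ r ∈ maximalIdeal S ^ n)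
    (I : Ideal R) : Ideal S where
  carrier := {s | ∀ n : ℕ, ∃ r ∈ I, s - τ r ∈ maximalIdeal S ^ n}
  zero_mem' := fun n => ⟨0, I.zero_mem, by simp⟩
  add_mem' := by
    intro s₁ s₂ h₁ h₂ n
    obtain ⟨r₁, hr₁, h₁'⟩ := h₁ n
    obtain ⟨r₂, hr₂, h₂'⟩ := h₂ n
    refine ⟨r₁ + r₂, I.add_mem hr₁ hr₂, ?_⟩
    have : s₁ + s₂ - τ (r₁ + r₂) = (s₁ - τ r₁) + (s₂ - τ r₂) := by
      rw [map_add]; ring
    rw [this]
    exact Ideal.add_mem _ h₁' h₂'
  smul_mem' := by
    intro c s hs n
    obtain ⟨r, hr, hr'⟩ := hs n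
    obtain ⟨c', hc'⟩ := hdense n c
    refine ⟨c' * r, I.mul_mem_left c' hr, ?_⟩
    have : c • s - τ (c' * r) = c * (s - τ r) + (c - τ c') * τ r := by
      rw [map_mul, smul_eq_mul]; ring
    rw [this]
    exact Ideal.add_mem _ (Ideal.mul_mem_left _ _ hr') (Ideal.mul_mem_right _ _ hc')

/-- **3b.** Every ideal of `R` is contracted from `S`. -/
theorem comap_map_eq
    (hcomap : ∀ n : ℕ, (maximalIdeal S ^ n).comap τ = maximalIdeal R ^ n)
    (hdense : ∀ (n : ℕ) (s : S), ∃ r : R, s - τ r ∈ maximalIdeal S ^ n)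
    (I : Ideal R) : (I.map τ).comap τ = I := by
  refine le_antisymm ?_ Ideal.le_comap_map
  intro r hr
  have hle : I.map τ ≤ closureIdeal τ hdense I := by
    rw [Ideal.map_le_iff_le_comap]
    intro a ha
    exact fun n => ⟨a, ha, by simp⟩
  have hr' : τ r ∈ closureIdeal τ hdense I := hle (Ideal.mem_comap.1 hr)
  refine mem_of_forall_mem_sup_pow I r (fun n => ?_)
  obtain ⟨a, ha, han⟩ := hr' n
  have h1 : r - a ∈ maximalIdeal R ^ n := by
    rw [← hcomap n, Ideal.mem_comap, map_sub]
    exact han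
  have : r = a + (r - a) := by ring
  rw [this]
  exact Submodule.add_mem_sup ha h1

/-- An element of `R` divides another one as soon as it does so in `S`. -/
theorem dvd_of_map_dvd
    (hcomap : ∀ n : ℕ, (maximalIdeal S ^ n).comap τ = maximalIdeal R ^ n)
    (hdense : ∀ (n : ℕ) (s : S), ∃ r : R, s - τ r ∈ maximalIdeal S ^ n)
    {a b : R} (h : τ a ∣ τ b) : a ∣ b := by
  have h1 : τ b ∈ (Ideal.span {a}).map τ := by
    rw [Ideal.map_span, Set.image_singleton]
    exact Ideal.mem_span_singleton.2 h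
  have h2 : b ∈ ((Ideal.span {a}).map τ).comap τ := Ideal.mem_comap.2 h1
  rw [comap_map_eq τ hcomap hdense] at h2
  exact Ideal.mem_span_singleton.1 h2

/-- **3a.** The powers of the maximal ideal of `S` are extended from `R`. -/
theorem map_pow_eq
    (hcomap : ∀ n : ℕ, (maximalIdeal S ^ n).comap τ = maximalIdeal R ^ n)
    (hdense : ∀ (n : ℕ) (s : S), ∃ r : R, s - τ r ∈ maximalIdeal S ^ n)
    (n : ℕ) : (maximalIdeal R ^ n).map τ = maximalIdeal S ^ n := by
  refine le_antisymm ?_ ?_
  · rw [Ideal.map_le_iff_le_comap, hcomap n]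
  · intro s hs
    refine mem_of_forall_mem_sup_pow _ s (fun N => ?_)
    obtain ⟨r, hr⟩ := hdense (max N n) s
    have hrN : s - τ r ∈ maximalIdeal S ^ N := Ideal.pow_le_pow_right (le_max_left N n) hr
    have hrn : s - τ r ∈ maximalIdeal S ^ n := Ideal.pow_le_pow_right (le_max_right N n) hr
    have h1 : τ r ∈ maximalIdeal S ^ n := by
      have : τ r = s - (s - τ r) := by ring
      rw [this]
      exact Ideal.sub_mem _ hs hrn
    have h2 : r ∈ maximalIdeal R ^ n := by
      rw [← hcomap n]
      exact Ideal.mem_comap.2 h1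
    have : s = τ r + (s - τ r) := by ring
    rw [this]
    exact Submodule.add_mem_sup (Ideal.mem_map_of_mem τ h2) hrN

/-- Elements of `span {a, b} * I` are of the form `a t + b s` with `t, s ∈ I`. -/
theorem exists_of_mem_span_pair_mul {A : Type u} [CommRing A] {a b x : A} {I : Ideal A}
    (hx : x ∈ Ideal.span {a, b} * I) : ∃ t ∈ I, ∃ s ∈ I, x = a * t + b * s := by
  have h1 : Ideal.span {a, b} * I = Ideal.span {a} * I ⊔ Ideal.span {b} * I := by
    rw [← Ideal.sup_mul, ← Ideal.span_union]
    rfl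
  rw [h1] at hx
  obtain ⟨y, hy, z, hz, rfl⟩ := Submodule.mem_sup.1 hx
  obtain ⟨t, ht, rfl⟩ := Ideal.mem_span_singleton_mul.1 hy
  obtain ⟨s, hs, rfl⟩ := Ideal.mem_span_singleton_mul.1 hz
  exact ⟨t, ht, s, hs, rfl⟩

variable [IsDomain S] [UniqueFactorizationMonoid S]

/-- **3c.** gcd's descend: for `a ≠ 0` and `b` in `R` there are `a', b' ∈ R` with
`a * b' = b * a'`, `a' ∣ a`, and such that `τ a'`, `τ b'` are the reduced factors of `τ a`, `τ b`
up to a common unit. -/
theorem exists_reduced_pair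
    (hcomap : ∀ n : ℕ, (maximalIdeal S ^ n).comap τ = maximalIdeal R ^ n)
    (hdense : ∀ (n : ℕ) (s : S), ∃ r : R, s - τ r ∈ maximalIdeal S ^ n)
    {a : R} (ha : a ≠ 0) (b : R) :
    ∃ (a' b' : R) (α β d γ : S), IsRelPrime α β ∧ d * α = τ a ∧ d * β = τ b ∧ IsUnit γ ∧
      τ a' = α * γ ∧ τ b' = β * γ ∧ a * b' = b * a' := by
  have hinj := chart_injective τ hcomap
  have hτa : τ a ≠ 0 := fun h => ha (hinj (by rw [h, map_zero]))
  obtain ⟨α, β, d, hrel, hdα, hdβ⟩ := UniqueFactorizationMonoid.exists_reduced_factors (τ a) hτa (τ b)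
  have hd : d ≠ 0 := by
    rintro rfl
    rw [zero_mul] at hdα
    exact hτa hdα.symm
  have hα : α ≠ 0 := by
    rintro rfl
    rw [mul_zero] at hdα
    exact hτa hdα.symm
  obtain ⟨n, hn⟩ := exists_notMem_pow hα
  obtain ⟨αn, hαn⟩ := hdense n α
  obtain ⟨βn, hβn⟩ := hdense n β
  -- the key congruence
  have hx : τ (a * βn - b * αn) ∈ (Ideal.span {a, b} * maximalIdeal R ^ n).map τ := by
    have e : τ (a * βn - b * αn) = τ b * (α - τ αn) - τ a * (β - τ βn) := by
      rw [map_sub, map_mul, map_mul, ← hdα, ← hdβ]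
      ring
    rw [e, Ideal.map_mul, map_pow_eq τ hcomap hdense n]
    refine Ideal.sub_mem _ (Ideal.mul_mem_mul ?_ hαn) (Ideal.mul_mem_mul ?_ hβn)
    · exact Ideal.mem_map_of_mem τ (Ideal.subset_span (by simp))
    · exact Ideal.mem_map_of_mem τ (Ideal.subset_span (by simp))
  have hx' : a * βn - b * αn ∈ Ideal.span {a, b} * maximalIdeal R ^ n := by
    have := Ideal.mem_comap.2 hx
    rwa [comap_map_eq τ hcomap hdense] at this
  obtain ⟨t, ht, s, hs, hts⟩ := exists_of_mem_span_pair_mul hx'
  -- `a * (βn - t) = b * (αn + s)`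
  have hab : a * (βn - t) = b * (αn + s) := by
    have : a * βn - b * αn = a * t + b * s := hts
    linear_combination this
  have hτt : τ t ∈ maximalIdeal S ^ n := by
    have : t ∈ (maximalIdeal S ^ n).comap τ := by rw [hcomap n]; exact ht
    exact Ideal.mem_comap.1 this
  have hτs : τ s ∈ maximalIdeal S ^ n := by
    have : s ∈ (maximalIdeal S ^ n).comap τ := by rw [hcomap n]; exact hs
    exact Ideal.mem_comap.1 this
  -- in `S`
  have h1 : α * τ (βn - t) = β * τ (αn + s) := by
    have h2 : τ a * τ (βn - t) = τ b * τ (αn + s) := by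
      rw [← map_mul, ← map_mul, hab]
    rw [← hdα, ← hdβ, mul_assoc, mul_assoc] at h2
    exact mul_left_cancel₀ hd h2
  have h3 : α ∣ τ (αn + s) := by
    have : α ∣ β * τ (αn + s) := ⟨_, h1.symm⟩
    exact hrel.dvd_of_dvd_mul_left this
  obtain ⟨γ, hγ⟩ := h3
  have h4 : τ (βn - t) = β * γ := by
    rw [hγ] at h1
    have : α * τ (βn - t) = α * (β * γ) := by rw [h1]; ring
    exact mul_left_cancel₀ hα this
  -- `γ` is a unit
  have hγu : IsUnit γ := by
    by_contra hnu
    have hγm : γ ∈ maximalIdeal S := (mem_maximalIdeal γ).2 hnu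
    have hu : IsUnit (1 - γ) := by
      by_contra h
      have h' : 1 - γ ∈ maximalIdeal S := (mem_maximalIdeal _).2 h
      have h1 : (1 - γ) + γ ∈ maximalIdeal S := Ideal.add_mem _ h' hγm
      rw [sub_add_cancel] at h1
      exact (maximalIdeal.isMaximal S).ne_top ((Ideal.eq_top_iff_one _).2 h1)
    have h5 : α * (1 - γ) ∈ maximalIdeal S ^ n := by
      have : α * (1 - γ) = (α - τ αn) - τ s := by
        rw [mul_sub, mul_one, ← hγ, map_add]
        ring
      rw [this]
      exact Ideal.sub_mem _ hαn hτs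
    apply hn
    obtain ⟨v, hv⟩ := hu
    have : α = α * (1 - γ) * (↑v⁻¹ : S) := by
      rw [← hv, mul_assoc, Units.mul_inv, mul_one]
    rw [this]
    exact Ideal.mul_mem_right _ _ h5
  exact ⟨αn + s, βn - t, α, β, d, γ, hrel, hdα, hdβ, hγu, hγ, h4, hab⟩

/-- **3d.** Irreducible elements of `R` are prime. -/
theorem prime_of_irreducible
    (hcomap : ∀ n : ℕ, (maximalIdeal S ^ n).comap τ = maximalIdeal R ^ n)
    (hdense : ∀ (n : ℕ) (s : S), ∃ r : R, s - τ r ∈ maximalIdeal S ^ n)
    {p : R} (hp : Irreducible p) : Prime p := by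
  have hinj := chart_injective τ hcomap
  have hp0 : p ≠ 0 := hp.ne_zero
  refine ⟨hp0, hp.not_isUnit, ?_⟩
  intro x y hxy
  by_contra hcon
  push Not at hcon
  obtain ⟨hx, hy⟩ := hcon
  obtain ⟨p', x', α, β, d, γ, hrel, hdα, hdβ, hγ, hp', hx', hpx⟩ :=
    exists_reduced_pair τ hcomap hdense hp0 x
  -- `p' ∣ p`
  have hp'dvd : p' ∣ p := by
    apply dvd_of_map_dvd τ hcomap hdense
    obtain ⟨v, rfl⟩ := hγ
    refine ⟨d * ↑v⁻¹, ?_⟩
    rw [hp', ← hdα]
    calc d * α = d * α * (↑v * ↑v⁻¹) := by rw [Units.mul_inv, mul_one]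
      _ = α * ↑v * (d * ↑v⁻¹) := by ring
  obtain ⟨d', hd'⟩ := hp'dvd
  rcases hp.isUnit_or_isUnit hd' with hu | hu
  · -- `p'` is a unit: then `p ∣ x`
    apply hx
    obtain ⟨v, rfl⟩ := hu
    refine ⟨x' * ↑v⁻¹, ?_⟩
    calc x = x * (↑v * ↑v⁻¹) := by rw [Units.mul_inv, mul_one]
      _ = (x * ↑v) * ↑v⁻¹ := by ring
      _ = (p * x') * ↑v⁻¹ := by rw [hpx]
      _ = p * (x' * ↑v⁻¹) := by ring
  · -- `d'` is a unit: then `τ p` and `τ x` are relatively prime
    apply hy
    apply dvd_of_map_dvd τ hcomap hdense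
    have hα : α ≠ 0 := by
      rintro rfl
      rw [mul_zero] at hdα
      exact hp0 (hinj (by rw [← hdα, map_zero]))
    -- `d` is a unit
    have hdu : IsUnit d := by
      have e : d * α = α * (γ * τ d') := by
        rw [hdα, hd', map_mul, hp']
        ring
      have e' : d = γ * τ d' := by
        have : α * d = α * (γ * τ d') := by rw [← e]; ring
        exact mul_left_cancel₀ hα this
      rw [e']
      exact hγ.mul (hu.map τ)
    have hrel' : IsRelPrime (τ p) (τ x) := by
      rw [← hdα, ← hdβ]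
      exact (isRelPrime_mul_unit_left hdu).2 hrel
    have hdvd : τ p ∣ τ x * τ y := by
      rw [← map_mul]
      exact map_dvd τ hxy
    exact hrel'.dvd_of_dvd_mul_left hdvd

/-- **U3.** Descent of unique factorisation along a formal chart (unbundled hypotheses). -/
theorem ufd_of_chart
    (hcomap : ∀ n : ℕ, (maximalIdeal S ^ n).comap τ = maximalIdeal R ^ n)
    (hdense : ∀ (n : ℕ) (s : S), ∃ r : R, s - τ r ∈ maximalIdeal S ^ n) :
    IsDomain R ∧ UniqueFactorizationMonoid R := by
  have hinj := chart_injective τ hcomap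
  have : IsDomain R := hinj.isDomain τ
  refine ⟨inferInstance, ?_⟩
  have : WfDvdMonoid R := IsNoetherianRing.wfDvdMonoid
  exact
    { irreducible_iff_prime := fun {a} =>
        ⟨fun h => prime_of_irreducible τ hcomap hdense h, Prime.irreducible⟩ }

end Chart

/-! ## The skeleton statement -/

/-- `τ : R → S` is a *formal chart* (verbatim copy of the structure of the UFD skeleton of
helper445): it identifies the adic filtrations and has dense image. -/
structure IsFormalChart {R S : Type u} [CommRing R] [CommRing S] [IsLocalRing R] [IsLocalRing S]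
    (τ : R →+* S) : Prop where
  comap_pow : ∀ n : ℕ, (maximalIdeal S ^ n).comap τ = maximalIdeal R ^ n
  dense : ∀ (n : ℕ) (s : S), ∃ r : R, s - τ r ∈ maximalIdeal S ^ n

/-- **U3.** Descent of unique factorisation along a formal chart (skeleton statement). -/
theorem ufd_of_isFormalChart {R S : Type u} [CommRing R] [CommRing S] [IsLocalRing R]
    [IsLocalRing S] [IsNoetherianRing R] [IsNoetherianRing S] [IsDomain S]
    [UniqueFactorizationMonoid S] (τ : R →+* S) (h : IsFormalChart τ) :
    IsDomain R ∧ UniqueFactorizationMonoid R :=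
  ufd_of_chart τ h.comap_pow h.dense

/-- Every prime ideal of height one of a unique factorisation domain is principal. -/
theorem isPrincipal_of_height_eq_one_of_ufd {R : Type u} [CommRing R] [IsDomain R]
    [UniqueFactorizationMonoid R] (P : Ideal R) [P.IsPrime] (hP : P.height = 1) :
    P.IsPrincipal := by
  have hP0 : P ≠ ⊥ := by
    rintro rfl
    rw [Ideal.height_bot] at hP
    exact zero_ne_one hP
  obtain ⟨p, hpP, hp⟩ := Ideal.IsPrime.exists_mem_prime_of_ne_bot ‹P.IsPrime› hP0
  have hle : Ideal.span {p} ≤ P := (Ideal.span_singleton_le_iff_mem P).2 hpP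
  have hprime : (Ideal.span {p}).IsPrime := (Ideal.span_singleton_prime hp.ne_zero).2 hp
  have hne : Ideal.span {p} ≠ ⊥ := by
    rw [Ne, Ideal.span_singleton_eq_bot]
    exact hp.ne_zero
  -- `span {p}` is a nonzero prime contained in the height-one prime `P`
  have hPfin : P.FiniteHeight := P.finiteHeight_iff.2 (Or.inr (by rw [hP]; exact ENat.one_ne_top))
  have heq : Ideal.span {p} = P := by
    by_contra hne'
    have hlt : Ideal.span {p} < P := lt_of_le_of_ne hle hne'
    have h1 : (Ideal.span {p}).height < P.height :=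
      Ideal.height_strict_mono_of_isPrime_of_isPrime hlt
    rw [hP] at h1
    have hfin : (Ideal.span {p}).FiniteHeight :=
      (Ideal.span {p}).finiteHeight_iff.2 (Or.inr (ne_top_of_lt h1))
    have hbot : (⊥ : Ideal R).IsPrime := Ideal.isPrime_bot
    have h2 : (⊥ : Ideal R).height < (Ideal.span {p}).height :=
      Ideal.height_strict_mono_of_isPrime_of_isPrime (bot_lt_iff_ne_bot.2 hne)
    have h3 : (Ideal.span {p}).height = 0 := Order.lt_one_iff.1 h1
    rw [h3] at h2
    exact not_lt_zero h2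
  exact ⟨⟨p, heq.symm⟩⟩

end Fermat.Agent.S26.H925
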