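import Fermat.Agent.S26.Pic.Theory
import Mathlib

/-!
# Row S26, block PIC, leaf P5 (helper925): generic triviality spreads out — library

Model: `cechPic` (point-indexed Čech cocycles, `Pic/Defs.lean`, `Pic/Theory.lean`).

* `TrivData` : cover data trivialising a cocycle; `TrivData.cl_pullback_eq_zero`.
* gluing of sections (`exists_glue`, `eq_of_locally`).
* `pushoutCoord` : coordinates in a pushout of algebras with a free factor.
* `Retraction`, `cl_eq_zero_of_retraction` : descent of triviality along a retraction.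
* `retractionOfBasis` : the retraction of a flat free base change (Mathlib flat base change).
* **A** `eq_zero_of_map_pullback_fst_eq_zero` : `Y` proper geometrically integral over a field
  `F`, `F'` a field over `F`; `Pic Y → Pic (Y ×_F F')` is injective.
* `exists_num_den`, `exists_unit_spread`, `exists_res_eq_zero`, `exists_trivData_of_generic` :
  spreading out from `P ×_S Spec 𝒪_{S,x}`.
* **B** `exists_open_of_map_fromSpecStalk_eq_zero` : `pr : P ⟶ S` quasi-compact, quasi-separated,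
  closed; a class trivial on `P ×_S Spec 𝒪_{S,x}` is trivial on `pr⁻¹ U`, `U ∋ x` open.
* `genericSpread_core` : P5 in core form.
-/

set_option autoImplicit false
set_option linter.style.haveILetI false

universe u

namespace Fermat.Agent.S26.H925

noncomputable section


section P5Cover

open AlgebraicGeometry CategoryTheory TopologicalSpace Opposite
open Fermat.Agent.S26 Fermat.Agent.S26.Pic

variable {X X' : Scheme.{u}}

/-- Cover data trivialising a cocycle over the union of the opens `O k`. -/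
structure TrivData (c : Cocycle X) (κ : Type*) where
  /-- the opens -/
  O : κ → X.Opens
  /-- the base points -/
  z : κ → X
  le : ∀ k, O k ≤ c.U (z k)
  /-- the trivialising units -/
  s : ∀ k, Γ(X, O k)ˣ
  eq : ∀ k l, res (inf_le_inf (le k) (le l)) (c.g (z k) (z l)) *
    res (inf_le_right : O k ⊓ O l ≤ O l) (s l) = res (inf_le_left : O k ⊓ O l ≤ O k) (s k)

namespace TrivData

variable {c : Cocycle X} {κ : Type*} (D : TrivData c κ)

/-- The relation of the cover data on any open contained in `O k ⊓ O l`. -/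
lemma eq_on (k l : κ) {W : X.Opens} (hk : W ≤ D.O k) (hl : W ≤ D.O l) :
    res (le_inf (hk.trans (D.le k)) (hl.trans (D.le l))) (c.g (D.z k) (D.z l)) * res hl (D.s l) =
      res hk (D.s k) := by
  have := congrArg (res (le_inf hk hl)) (D.eq k l)
  simpa only [map_mul, res_res] using this

/-- The union of the opens of the cover data. -/
def support : X.Opens := ⨆ k, D.O k

lemma mem_support {x : X} : x ∈ D.support ↔ ∃ k, x ∈ D.O k := by
  simp [support, Opens.mem_iSup]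

/-- **Triviality from cover data.** -/
theorem cl_pullback_eq_zero (f : X' ⟶ X) (hf : ∀ x', f x' ∈ D.support) :
    cl (c.pullback f) = 0 := by
  choose k hk using fun x' => D.mem_support.1 (hf x')
  rw [cl_eq_zero_iff]
  refine ⟨fun x' => f ⁻¹ᵁ (D.O (k x') ⊓ c.U (f x')), fun x' => ⟨hk x', c.mem _⟩,
    fun x' => f.preimage_mono inf_le_right,
    fun x' => pull f le_rfl
      (res (le_inf inf_le_right (inf_le_left.trans (D.le _))) (c.g (f x') (D.z (k x'))) *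
        res inf_le_left (D.s (k x'))), fun x' y' => ?_⟩
  rw [Cocycle.res_pullback_g]
  simp only [res_pull]
  have key : res (show (D.O (k x') ⊓ c.U (f x')) ⊓ (D.O (k y') ⊓ c.U (f y')) ≤
        c.U (f x') ⊓ c.U (f y') from inf_le_inf inf_le_right inf_le_right) (c.g (f x') (f y')) *
      res (show (D.O (k x') ⊓ c.U (f x')) ⊓ (D.O (k y') ⊓ c.U (f y')) ≤
        D.O (k y') ⊓ c.U (f y') from inf_le_right)
        (res (le_inf inf_le_right (inf_le_left.trans (D.le _))) (c.g (f y') (D.z (k y'))) *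
          res inf_le_left (D.s (k y'))) =
      res (show (D.O (k x') ⊓ c.U (f x')) ⊓ (D.O (k y') ⊓ c.U (f y')) ≤
        D.O (k x') ⊓ c.U (f x') from inf_le_left)
        (res (le_inf inf_le_right (inf_le_left.trans (D.le _))) (c.g (f x') (D.z (k x'))) *
          res inf_le_left (D.s (k x'))) := by
    simp only [map_mul, res_res]
    set W : X.Opens := (D.O (k x') ⊓ c.U (f x')) ⊓ (D.O (k y') ⊓ c.U (f y')) with hW
    have hWk : W ≤ D.O (k x') := inf_le_left.trans inf_le_left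
    have hWl : W ≤ D.O (k y') := inf_le_right.trans inf_le_left
    have hWa : W ≤ c.U (f x') := inf_le_left.trans inf_le_right
    have hWb : W ≤ c.U (f y') := inf_le_right.trans inf_le_right
    have hWzk : W ≤ c.U (D.z (k x')) := hWk.trans (D.le _)
    have hWzl : W ≤ c.U (D.z (k y')) := hWl.trans (D.le _)
    rw [← mul_assoc, c.cocycle_on (le_inf hWa hWb) (le_inf hWb hWzl) (le_inf hWa hWzl),
      ← D.eq_on (k x') (k y') hWk hWl, ← mul_assoc,
      c.cocycle_on (le_inf hWa hWzk) (le_inf hWzk hWzl) (le_inf hWa hWzl)]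
  have := congrArg (pull f (le_refl (f ⁻¹ᵁ ((D.O (k x') ⊓ c.U (f x')) ⊓
    (D.O (k y') ⊓ c.U (f y')))))) key
  simp only [map_mul, pull_res] at this ⊢
  exact this

/-- Triviality from cover data covering the whole scheme. -/
theorem cl_eq_zero (hD : ∀ x, x ∈ D.support) : cl c = 0 := by
  have := D.cl_pullback_eq_zero (𝟙 X) (fun x => hD x)
  rwa [← map_cl, cechPic.map_id] at this

end TrivData

/-- A trivial class has cover data indexed by the points. -/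
theorem exists_trivData_of_cl_eq_zero {c : Cocycle X} (h : cl c = 0) :
    ∃ D : TrivData c X, (∀ x, x ∈ D.O x) ∧ ∀ x, D.z x = x := by
  rw [cl_eq_zero_iff] at h
  obtain ⟨V, hV, hc, h, H⟩ := h
  exact ⟨⟨V, id, hc, h, H⟩, hV, fun _ => rfl⟩

end P5Cover


section P5Glue

open AlgebraicGeometry CategoryTheory TopologicalSpace Opposite
open Fermat.Agent.S26 Fermat.Agent.S26.Pic

variable {X Y : Scheme.{u}}

/-- Restriction of sections, as a ring homomorphism. -/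
def rs {U V : X.Opens} (h : V ≤ U) : Γ(X, U) →+* Γ(X, V) :=
  (X.presheaf.map (homOfLE h).op).hom

lemma rs_rs {U V W : X.Opens} (h : V ≤ U) (h' : W ≤ V) (a : Γ(X, U)) :
    rs h' (rs h a) = rs (h'.trans h) a := by
  simp only [rs]
  rw [← CommRingCat.comp_apply, ← Functor.map_comp]
  rfl

lemma rs_self {U : X.Opens} (h : U ≤ U) (a : Γ(X, U)) : rs h a = a := by
  simp only [rs]
  have : (homOfLE h).op = 𝟙 (op U) := rfl
  rw [this, X.presheaf.map_id]
  rfl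

lemma coe_res {U V : X.Opens} (h : V ≤ U) (a : Γ(X, U)ˣ) :
    ((res h a : Γ(X, V)ˣ) : Γ(X, V)) = rs h (a : Γ(X, U)) := rfl

lemma coe_pull (f : X ⟶ Y) {U : Y.Opens} {V : X.Opens} (e : V ≤ f ⁻¹ᵁ U) (a : Γ(Y, U)ˣ) :
    ((pull f e a : Γ(X, V)ˣ) : Γ(X, V)) = (f.appLE U V e).hom (a : Γ(Y, U)) := rfl

lemma appLE_eq_rs_app (f : X ⟶ Y) {U : Y.Opens} {V : X.Opens} (e : V ≤ f ⁻¹ᵁ U) (a : Γ(Y, U)) :
    (f.appLE U V e).hom a = rs e ((f.app U).hom a) := rfl

lemma rs_app (f : X ⟶ Y) {U U' : Y.Opens} (h : U' ≤ U) (a : Γ(Y, U)) :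
    rs (f.preimage_mono h) ((f.app U).hom a) = (f.app U').hom (rs h a) := by
  simp only [rs]
  rw [← CommRingCat.comp_apply, ← CommRingCat.comp_apply]
  congr 2
  exact (f.naturality (homOfLE h).op).symm

/-- Gluing of sections of the structure sheaf. -/
lemma exists_glue {ι : Type*} (V : X.Opens) (W : ι → X.Opens) (hWV : ∀ i, W i ≤ V)
    (hcov : V ≤ ⨆ i, W i) (t : ∀ i, Γ(X, W i))
    (ht : ∀ i j, rs (inf_le_left : W i ⊓ W j ≤ W i) (t i) =
      rs (inf_le_right : W i ⊓ W j ≤ W j) (t j)) :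
    ∃ s : Γ(X, V), ∀ i, rs (hWV i) s = t i := by
  obtain ⟨s, hs, -⟩ := X.sheaf.existsUnique_gluing' W V (fun i => homOfLE (hWV i)) hcov t
    (fun i j => ht i j)
  exact ⟨s, hs⟩

/-- Sections of the structure sheaf which agree locally are equal. -/
lemma eq_of_locally {ι : Type*} (V : X.Opens) (W : ι → X.Opens) (hWV : ∀ i, W i ≤ V)
    (hcov : V ≤ ⨆ i, W i) (s s' : Γ(X, V)) (h : ∀ i, rs (hWV i) s = rs (hWV i) s') : s = s' :=
  X.sheaf.eq_of_locally_eq' W V (fun i => homOfLE (hWV i)) hcov s s' h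

/-- A section which is locally a unit is a unit. -/
lemma isUnit_of_locally {ι : Type*} (V : X.Opens) (W : ι → X.Opens) (hWV : ∀ i, W i ≤ V)
    (hcov : V ≤ ⨆ i, W i) (s : Γ(X, V)) (h : ∀ i, IsUnit (rs (hWV i) s)) : IsUnit s := by
  choose u hu using h
  obtain ⟨v, hv⟩ := exists_glue V W hWV hcov (fun i => ((u i)⁻¹ : Γ(X, W i)ˣ)) (by
    intro i j
    have h1 : rs (inf_le_left : W i ⊓ W j ≤ W i) (u i : Γ(X, W i)) =
        rs (inf_le_right : W i ⊓ W j ≤ W j) (u j : Γ(X, W j)) := by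
      rw [hu, hu, rs_rs, rs_rs]
    have h2 : (res (inf_le_left : W i ⊓ W j ≤ W i) (u i)) =
        (res (inf_le_right : W i ⊓ W j ≤ W j) (u j)) := Units.ext h1
    have h3 := congrArg (fun w : Γ(X, W i ⊓ W j)ˣ => ((w⁻¹ : Γ(X, W i ⊓ W j)ˣ) : Γ(X, W i ⊓ W j)))
      h2
    simpa only [← map_inv, coe_res] using h3)
  refine isUnit_iff_exists_inv.2 ⟨v, ?_⟩
  apply eq_of_locally V W hWV hcov
  intro i
  rw [map_mul, map_one, hv, ← hu]
  simp

end P5Glue


section P5Coord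

open TensorProduct

section Coord

variable {R S R' S' : Type u} [CommRing R] [CommRing S] [CommRing R'] [CommRing S']
  [Algebra R S] [Algebra R R'] [Algebra S S'] [Algebra R' S'] [Algebra R S']
  [IsScalarTower R S S'] [IsScalarTower R R' S'] [Algebra.IsPushout R S R' S']
  {ι : Type*} (e : Module.Basis ι R R')

variable (S S') in
/-- The basis of `S'` over `S` induced by a basis of `R'` over `R`. -/
def pushoutBasis : Module.Basis ι S S' :=
  (Algebra.TensorProduct.basis S e).map (Algebra.IsPushout.equiv R S R' S').toLinearEquiv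

lemma pushoutBasis_apply (α : ι) : pushoutBasis S S' e α = algebraMap R' S' (e α) := by
  simp [pushoutBasis, Algebra.IsPushout.equiv_tmul]

variable (S S') in
/-- The coordinate maps of `S'` over `S`. -/
def pushoutCoord (α : ι) : S' →ₗ[S] S := (pushoutBasis S S' e).coord α

lemma pushoutCoord_algebraMap_mul (α : ι) (s : S) (x : S') :
    pushoutCoord S S' e α (algebraMap S S' s * x) = s * pushoutCoord S S' e α x := by
  rw [← Algebra.smul_def, map_smul, smul_eq_mul]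

lemma exists_pushoutCoord_ne_zero {x : S'} (hx : x ≠ 0) : ∃ α, pushoutCoord S S' e α x ≠ 0 := by
  by_contra hcon
  push Not at hcon
  apply hx
  rw [(pushoutBasis S S' e).ext_elem_iff]
  intro α
  simpa [pushoutCoord] using hcon α

/-- Naturality of the coordinates. -/
lemma pushoutCoord_map {S₂ S₂' : Type u} [CommRing S₂] [CommRing S₂'] [Algebra R S₂]
    [Algebra S₂ S₂'] [Algebra R' S₂'] [Algebra R S₂'] [IsScalarTower R S₂ S₂']
    [IsScalarTower R R' S₂'] [Algebra.IsPushout R S₂ R' S₂']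
    (ρ : S →+* S₂) (ρ' : S' →+* S₂')
    (h₁ : ∀ s, ρ' (algebraMap S S' s) = algebraMap S₂ S₂' (ρ s))
    (h₂ : ∀ r', ρ' (algebraMap R' S' r') = algebraMap R' S₂' r') (α : ι) (x : S') :
    pushoutCoord S₂ S₂' e α (ρ' x) = ρ (pushoutCoord S S' e α x) := by
  have hx := (pushoutBasis S S' e).linearCombination_repr x
  have key : ∀ l : ι →₀ S, pushoutCoord S₂ S₂' e α
      (ρ' (Finsupp.linearCombination S (pushoutBasis S S' e) l)) = ρ (l α) := by
    intro l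
    induction l using Finsupp.induction_linear with
    | zero => simp
    | add f g hf hg => simp only [map_add, hf, hg, Finsupp.add_apply]
    | single β s =>
      rw [Finsupp.linearCombination_single, Algebra.smul_def, map_mul, h₁, pushoutBasis_apply, h₂,
        ← pushoutBasis_apply (S := S₂) (S' := S₂'), ← Algebra.smul_def, map_smul]
      simp only [pushoutCoord, Module.Basis.coord_apply, Module.Basis.repr_self, smul_eq_mul]
      by_cases hαβ : β = α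
      · subst hαβ
        simp
      · simp [Finsupp.single_eq_of_ne (Ne.symm hαβ)]
  have := key ((pushoutBasis S S' e).repr x)
  rw [hx] at this
  rw [this]
  rfl

end Coord

end P5Coord


section P5Descent

open AlgebraicGeometry CategoryTheory TopologicalSpace Opposite
open Fermat.Agent.S26 Fermat.Agent.S26.Pic

variable {Y₁ Y : Scheme.{u}}

/-- A family of retractions of `p^♯ : Γ(Y, A) → Γ(Y₁, p⁻¹A)` on the opens in `𝒜`. -/
structure Retraction (p : Y₁ ⟶ Y) (𝒜 : Set Y.Opens) (ι : Type*) where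
  /-- the retractions -/
  τ : ι → ∀ A : Y.Opens, A ∈ 𝒜 → Γ(Y₁, p ⁻¹ᵁ A) →+ Γ(Y, A)
  lin : ∀ α A hA (b : Γ(Y, A)) (x : Γ(Y₁, p ⁻¹ᵁ A)),
    τ α A hA ((p.app A).hom b * x) = b * τ α A hA x
  nat : ∀ α A hA A' hA' (h : A' ≤ A) (x : Γ(Y₁, p ⁻¹ᵁ A)),
    τ α A' hA' (rs (p.preimage_mono h) x) = rs h (τ α A hA x)
  nz : ∀ A hA (x : Γ(Y₁, p ⁻¹ᵁ A)), x ≠ 0 → ∃ α, τ α A hA x ≠ 0

/-- A twisted section of a cocycle: `g x x' * σ x' = σ x` on `U x ⊓ U x'`. -/
def IsSection (c : Cocycle Y) (σ : ∀ x, Γ(Y, c.U x)) : Prop :=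
  ∀ x x', (c.g x x' : Γ(Y, c.U x ⊓ c.U x')) * rs inf_le_right (σ x') = rs inf_le_left (σ x)

section Lift

variable (p : Y₁ ⟶ Y) (c : Cocycle Y)

/-- A trivialisation of the pull-back of `c` along `p` gives, for every `x`, a section of
`p⁻¹ (U x)` twisted by `c`. -/
theorem exists_lifted_section (h : cl (c.pullback p) = 0) :
    ∃ s : ∀ x, Γ(Y₁, p ⁻¹ᵁ c.U x),
      (∀ x x', (p.app (c.U x ⊓ c.U x')).hom (c.g x x' : Γ(Y, c.U x ⊓ c.U x')) *
        rs (p.preimage_mono inf_le_right) (s x') = rs (p.preimage_mono inf_le_left) (s x)) ∧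
      ∀ y : Y₁, s (p y) ≠ 0 := by
  rw [cl_eq_zero_iff] at h
  obtain ⟨V, hV, hc, h, H⟩ := h
  -- restricted form of `H`
  have H' : ∀ (y y' : Y₁) (Ω : Y₁.Opens) (hy : Ω ≤ V y) (hy' : Ω ≤ V y'),
      pull p (le_inf (hy.trans (hc y)) (hy'.trans (hc y')) :
        Ω ≤ p ⁻¹ᵁ (c.U (p y) ⊓ c.U (p y'))) (c.g (p y) (p y')) * res hy' (h y') = res hy (h y) := by
    intro y y' Ω hy hy'
    have := congrArg (res (le_inf hy hy')) (H y y')
    rw [Cocycle.res_pullback_g] at this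
    simpa only [map_mul, res_res, res_pull] using this
  -- the local pieces
  let W : Y → Y₁ → Y₁.Opens := fun x y => p ⁻¹ᵁ (c.U x) ⊓ V y
  have eW : ∀ x y, W x y ≤ p ⁻¹ᵁ (c.U x ⊓ c.U (p y)) := fun x y => inf_le_inf le_rfl (hc y)
  let t : ∀ x y, Γ(Y₁, W x y)ˣ := fun x y =>
    pull p (eW x y) (c.g x (p y)) * res inf_le_right (h y)
  -- restricted form of `t`
  have ht : ∀ (x : Y) (y : Y₁) (Ω : Y₁.Opens) (hΩ : Ω ≤ W x y),
      res hΩ (t x y) = pull p (hΩ.trans (eW x y)) (c.g x (p y)) *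
        res (hΩ.trans inf_le_right) (h y) := by
    intro x y Ω hΩ
    simp only [t, map_mul, res_res, res_pull]
  -- the key local identity
  have key : ∀ (x x' : Y) (y : Y₁) (Ω : Y₁.Opens) (hx : Ω ≤ W x y) (hx' : Ω ≤ W x' y),
      pull p (le_inf (hx.trans inf_le_left) (hx'.trans inf_le_left) :
        Ω ≤ p ⁻¹ᵁ (c.U x ⊓ c.U x')) (c.g x x') * res hx' (t x' y) = res hx (t x y) := by
    intro x x' y Ω hx hx'
    rw [ht, ht, ← mul_assoc]
    congr 1
    have hc1 := c.cocycle_on (x := x) (y := x') (z := p y)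
      (W := c.U x ⊓ c.U x' ⊓ c.U (p y)) inf_le_left
      (le_inf (inf_le_left.trans inf_le_right) inf_le_right)
      (le_inf (inf_le_left.trans inf_le_left) inf_le_right)
    have hΩ : Ω ≤ p ⁻¹ᵁ (c.U x ⊓ c.U x' ⊓ c.U (p y)) :=
      le_inf (le_inf (hx.trans inf_le_left) (hx'.trans inf_le_left))
        ((hx.trans inf_le_right).trans (hc y))
    have := congrArg (pull p hΩ) hc1
    simpa only [map_mul, pull_res] using this
  have key2 : ∀ (x : Y) (y y' : Y₁) (Ω : Y₁.Opens) (hy : Ω ≤ W x y) (hy' : Ω ≤ W x y'),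
      res hy (t x y) = res hy' (t x y') := by
    intro x y y' Ω hy hy'
    rw [ht, ht, ← H' y y' Ω (hy.trans inf_le_right) (hy'.trans inf_le_right), ← mul_assoc]
    congr 1
    have hc1 := c.cocycle_on (x := x) (y := p y) (z := p y')
      (W := c.U x ⊓ c.U (p y) ⊓ c.U (p y')) inf_le_left
      (le_inf (inf_le_left.trans inf_le_right) inf_le_right)
      (le_inf (inf_le_left.trans inf_le_left) inf_le_right)
    have hΩ : Ω ≤ p ⁻¹ᵁ (c.U x ⊓ c.U (p y) ⊓ c.U (p y')) :=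
      le_inf (le_inf (hy.trans inf_le_left) ((hy.trans inf_le_right).trans (hc y)))
        ((hy'.trans inf_le_right).trans (hc y'))
    have := congrArg (pull p hΩ) hc1
    simp only [map_mul, pull_res] at this
    exact this
  -- glue
  have hglue : ∀ x, ∃ s : Γ(Y₁, p ⁻¹ᵁ c.U x),
      ∀ y, rs (inf_le_left : W x y ≤ p ⁻¹ᵁ c.U x) s = (t x y : Γ(Y₁, W x y)) := by
    intro x
    apply exists_glue (p ⁻¹ᵁ c.U x) (W x) (fun y => inf_le_left)
    · intro y hy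
      exact Opens.mem_iSup.2 ⟨y, hy, hV y⟩
    · intro y y'
      have := congrArg (fun u : Γ(Y₁, W x y ⊓ W x y')ˣ => (u : Γ(Y₁, W x y ⊓ W x y')))
        (key2 x y y' (W x y ⊓ W x y') inf_le_left inf_le_right)
      simpa only [coe_res] using this
  choose s hs using hglue
  refine ⟨s, fun x x' => ?_, fun y hy => ?_⟩
  · apply eq_of_locally (p ⁻¹ᵁ (c.U x ⊓ c.U x')) (fun y => p ⁻¹ᵁ (c.U x ⊓ c.U x') ⊓ V y)
      (fun y => inf_le_left) (fun y hy => Opens.mem_iSup.2 ⟨y, hy, hV y⟩)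
    intro y
    have hx : p ⁻¹ᵁ (c.U x ⊓ c.U x') ⊓ V y ≤ W x y := inf_le_inf (p.preimage_mono inf_le_left) le_rfl
    have hx' : p ⁻¹ᵁ (c.U x ⊓ c.U x') ⊓ V y ≤ W x' y :=
      inf_le_inf (p.preimage_mono inf_le_right) le_rfl
    have := congrArg (fun u : Γ(Y₁, p ⁻¹ᵁ (c.U x ⊓ c.U x') ⊓ V y)ˣ =>
      (u : Γ(Y₁, p ⁻¹ᵁ (c.U x ⊓ c.U x') ⊓ V y))) (key x x' y _ hx hx')
    simp only [Units.val_mul, coe_res, coe_pull, appLE_eq_rs_app] at this
    rw [map_mul, rs_rs, rs_rs]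
    rw [← hs x y, ← hs x' y, rs_rs, rs_rs] at this
    exact this
  · -- nonvanishing
    have h1 := hs (p y) y
    rw [hy, map_zero] at h1
    have hne : Nonempty (W (p y) y) := ⟨⟨y, c.mem (p y), hV y⟩⟩
    have : Nontrivial Γ(Y₁, W (p y) y) := Scheme.component_nontrivial Y₁ (W (p y) y)
    exact (t (p y) y).ne_zero h1.symm

end Lift

section Main

variable {p : Y₁ ⟶ Y} {𝒜 : Set Y.Opens} {ι : Type*}

/-- Descent of a nonzero twisted section along a retraction. -/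
theorem exists_section_ne_zero [Nonempty Y₁] (R : Retraction p 𝒜 ι) (c : Cocycle Y)
    (hU : ∀ x, c.U x ∈ 𝒜)
    (hUU : ∀ x x', c.U x ⊓ c.U x' ∈ 𝒜) (h : cl (c.pullback p) = 0) :
    ∃ σ : ∀ x, Γ(Y, c.U x), IsSection c σ ∧ ∃ x₀, σ x₀ ≠ 0 := by
  obtain ⟨s, hs, hne⟩ := exists_lifted_section p c h
  obtain ⟨y₀⟩ := ‹Nonempty Y₁›
  obtain ⟨α, hα⟩ := R.nz _ (hU (p y₀)) _ (hne y₀)
  refine ⟨fun x => R.τ α (c.U x) (hU x) (s x), fun x x' => ?_, p y₀, hα⟩
  rw [← R.nat α (c.U x) (hU x) (c.U x ⊓ c.U x') (hUU x x') inf_le_left,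
    ← R.nat α (c.U x') (hU x') (c.U x ⊓ c.U x') (hUU x x') inf_le_right, ← R.lin, hs x x']

end Main

section Final

variable [IsIntegral Y] (c : Cocycle Y)

/-- In an integral scheme, a nonzero twisted section is nonzero everywhere. -/
theorem IsSection.ne_zero {σ : ∀ x, Γ(Y, c.U x)} (hσ : IsSection c σ) {x₀ : Y}
    (h₀ : σ x₀ ≠ 0) (x : Y) : σ x ≠ 0 := by
  intro hx
  have h1 := hσ x x₀
  rw [hx, map_zero] at h1
  have hne : Nonempty ((c.U x ⊓ c.U x₀ : Y.Opens)) := by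
    obtain ⟨z, hz⟩ := nonempty_preirreducible_inter (c.U x).2 (c.U x₀).2 ⟨x, c.mem x⟩
      ⟨x₀, c.mem x₀⟩
    exact ⟨⟨z, hz⟩⟩
  have hinj := map_injective_of_isIntegral Y (homOfLE (inf_le_right : c.U x ⊓ c.U x₀ ≤ c.U x₀))
  have h2 : rs (inf_le_right : c.U x ⊓ c.U x₀ ≤ c.U x₀) (σ x₀) = 0 := by
    have := (c.g x x₀).isUnit.mul_right_eq_zero.1 h1
    exact this
  apply h₀
  apply hinj
  rw [map_zero]
  exact h2

/-- A twisted section by units trivialises the cocycle. -/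
theorem cl_eq_zero_of_isSection_isUnit {Y : Scheme.{u}} (c : Cocycle Y)
    {σ : ∀ x, Γ(Y, c.U x)} (hσ : IsSection c σ) (hu : ∀ x, IsUnit (σ x)) : cl c = 0 := by
  rw [cl_eq_zero_iff]
  refine ⟨c.U, c.mem, fun _ => le_rfl, fun x => (hu x).unit, fun x x' => ?_⟩
  apply Units.ext
  rw [Units.val_mul, coe_res, coe_res, coe_res, IsUnit.unit_spec, IsUnit.unit_spec, rs_self]
  exact hσ x x'

/-- **Descent of triviality** along a morphism with a retraction. -/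
theorem cl_eq_zero_of_retraction {p : Y₁ ⟶ Y} {𝒜 : Set Y.Opens} {ι : Type*} [Nonempty Y₁]
    (hfield : IsField Γ(Y, ⊤)) (R : Retraction p 𝒜 ι) (hU : ∀ x, c.U x ∈ 𝒜)
    (hUU : ∀ x x', c.U x ⊓ c.U x' ∈ 𝒜) (h : cl (c.pullback p) = 0) : cl c = 0 := by
  obtain ⟨σ, hσ, x₀, hx₀⟩ := exists_section_ne_zero R c hU hUU h
  have h' : cl (c.inv.pullback p) = 0 := by
    rw [← map_cl, cl_inv, map_neg, map_cl, h, neg_zero]
  obtain ⟨τ, hτ, x₁, hx₁⟩ := exists_section_ne_zero R c.inv hU hUU h'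
  have hσne := IsSection.ne_zero c hσ hx₀
  have hτne := IsSection.ne_zero c.inv hτ hx₁
  -- the product is a global function
  obtain ⟨u, hu⟩ := exists_glue (⊤ : Y.Opens) c.U (fun _ => le_top)
    (fun x _ => Opens.mem_iSup.2 ⟨x, c.mem x⟩) (fun x => σ x * τ x) (by
      intro x x'
      have h1 := hσ x x'
      have h2 := hτ x x'
      have h3 : ((c.inv.g x x' : Γ(Y, c.U x ⊓ c.U x')ˣ) : Γ(Y, c.U x ⊓ c.U x')) =
          ((c.g x x')⁻¹ : Γ(Y, c.U x ⊓ c.U x')ˣ) := rfl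
      rw [map_mul, map_mul, ← h1, ← h2, h3]
      rw [mul_mul_mul_comm, Units.mul_inv, one_mul])
  have hne : ∀ x, Nonempty (c.U x) := fun x => ⟨⟨x, c.mem x⟩⟩
  have hu0 : u ≠ 0 := by
    intro h0
    have := hu x₀
    rw [h0, map_zero] at this
    have hdom : IsDomain Γ(Y, c.U x₀) := inferInstance
    exact mul_ne_zero (hσne x₀) (hτne x₀) this.symm
  obtain ⟨v, hv⟩ := hfield.mul_inv_cancel hu0
  apply cl_eq_zero_of_isSection_isUnit c hσ
  intro x
  refine isUnit_iff_exists_inv.2 ⟨τ x * rs le_top v, ?_⟩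
  rw [← mul_assoc, ← hu x, ← map_mul, hv, map_one]

end Final

end P5Descent


section P5FlatBC

open AlgebraicGeometry CategoryTheory CategoryTheory.Limits TopologicalSpace Opposite
open Fermat.Agent.S26 Fermat.Agent.S26.Pic

variable {Y₁ Y S₀ T : Scheme.{u}} {p : Y₁ ⟶ Y} {q : Y₁ ⟶ T} {y : Y ⟶ S₀} {ψ : T ⟶ S₀}

/-- The algebra structure of `Γ(T, ⊤)` over `Γ(S₀, ⊤)`. -/
abbrev algBase (ψ : T ⟶ S₀) : Algebra Γ(S₀, ⊤) Γ(T, ⊤) := (ψ.appLE ⊤ ⊤ le_top).hom.toAlgebra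

/-- The quasi-compact quasi-separated opens. -/
def qcqsOpens (Y : Scheme.{u}) : Set Y.Opens :=
  {A | IsCompact (A : Set Y) ∧ IsQuasiSeparated (A : Set Y)}

section Pushout

variable (H : IsPullback p q y ψ) (A : Y.Opens)

include H in
/-- Flat base change of sections as a pushout square of rings. -/
theorem isPushout_sections [IsAffine S₀] [IsAffine T] [Flat ψ] (hA : A ∈ qcqsOpens Y) :
    IsPushout (y.appLE ⊤ A le_top) (ψ.appLE ⊤ ⊤ le_top) (p.app A)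
      (q.appLE ⊤ (p ⁻¹ᵁ A) le_top) := by
  have hUY : p ⁻¹ᵁ A = p ⁻¹ᵁ A ⊓ q ⁻¹ᵁ ⊤ := by simp
  have := isIso_pushoutSection_of_isQuasiSeparated_of_flat_right H (US := ⊤) (UT := ⊤) (UX := A)
    le_top le_top hUY (isAffineOpen_top S₀) (isAffineOpen_top T) hA.1 hA.2
  rw [Scheme.Hom.app_eq_appLE]
  exact (isIso_pushoutSection_iff H le_top le_top hUY).1 this

/-- The algebra structure of `Γ(Y, A)` over `Γ(S₀, ⊤)`. -/
abbrev algY (y : Y ⟶ S₀) (A : Y.Opens) : Algebra Γ(S₀, ⊤) Γ(Y, A) :=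
  (y.appLE ⊤ A le_top).hom.toAlgebra

/-- The algebra structure of `Γ(Y₁, p⁻¹A)` over `Γ(Y, A)`. -/
abbrev algP (p : Y₁ ⟶ Y) (A : Y.Opens) : Algebra Γ(Y, A) Γ(Y₁, p ⁻¹ᵁ A) :=
  (p.app A).hom.toAlgebra

/-- The algebra structure of `Γ(Y₁, p⁻¹A)` over `Γ(T, ⊤)`. -/
abbrev algQ (p : Y₁ ⟶ Y) (q : Y₁ ⟶ T) (A : Y.Opens) : Algebra Γ(T, ⊤) Γ(Y₁, p ⁻¹ᵁ A) :=
  (q.appLE ⊤ (p ⁻¹ᵁ A) le_top).hom.toAlgebra

/-- The algebra structure of `Γ(Y₁, p⁻¹A)` over `Γ(S₀, ⊤)`. -/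
abbrev algTot (p : Y₁ ⟶ Y) (q : Y₁ ⟶ T) (ψ : T ⟶ S₀) (A : Y.Opens) :
    Algebra Γ(S₀, ⊤) Γ(Y₁, p ⁻¹ᵁ A) :=
  ((q.appLE ⊤ (p ⁻¹ᵁ A) le_top).hom.comp (ψ.appLE ⊤ ⊤ le_top).hom).toAlgebra

theorem tower_T (p : Y₁ ⟶ Y) (q : Y₁ ⟶ T) (ψ : T ⟶ S₀) (A : Y.Opens) :
    letI := algBase ψ
    letI := algQ p q A
    letI := algTot p q ψ A
    IsScalarTower Γ(S₀, ⊤) Γ(T, ⊤) Γ(Y₁, p ⁻¹ᵁ A) := by
  letI := algBase ψ
  letI := algQ p q A
  letI := algTot p q ψ A
  exact IsScalarTower.of_algebraMap_eq (fun _ => rfl)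

include H in
theorem tower_Y :
    letI := algY y A
    letI := algP p A
    letI := algTot p q ψ A
    IsScalarTower Γ(S₀, ⊤) Γ(Y, A) Γ(Y₁, p ⁻¹ᵁ A) := by
  letI := algY y A
  letI := algP p A
  letI := algTot p q ψ A
  refine IsScalarTower.of_algebraMap_eq (fun r => ?_)
  have hsq : y.appLE ⊤ A le_top ≫ p.app A =
      ψ.appLE ⊤ ⊤ le_top ≫ q.appLE ⊤ (p ⁻¹ᵁ A) le_top := by
    rw [Scheme.Hom.app_eq_appLE]
    simp only [Scheme.Hom.appLE_comp_appLE, H.w]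
  have := congrArg (fun f => f.hom r) hsq
  exact this.symm

include H in
/-- Flat base change of sections, algebraic form. -/
theorem algebra_isPushout_sections [IsAffine S₀] [IsAffine T] [Flat ψ] (hA : A ∈ qcqsOpens Y) :
    letI := algBase ψ
    letI := algY y A
    letI := algP p A
    letI := algQ p q A
    letI := algTot p q ψ A
    haveI := tower_T p q ψ A
    haveI := tower_Y H A
    Algebra.IsPushout Γ(S₀, ⊤) Γ(Y, A) Γ(T, ⊤) Γ(Y₁, p ⁻¹ᵁ A) := by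
  letI := algBase ψ
  letI := algY y A
  letI := algP p A
  letI := algQ p q A
  letI := algTot p q ψ A
  haveI := tower_T p q ψ A
  haveI := tower_Y H A
  exact CommRingCat.isPushout_iff_isPushout.1 (isPushout_sections H A hA)

end Pushout

section Retr

variable [IsAffine S₀] [IsAffine T] [Flat ψ] (H : IsPullback p q y ψ) {ι : Type*}
  (e : letI := algBase ψ; Module.Basis ι Γ(S₀, ⊤) Γ(T, ⊤))

/-- The coordinate maps `Γ(Y₁, p⁻¹A) → Γ(Y, A)`. -/
def coordFun (α : ι) (A : Y.Opens) (hA : A ∈ qcqsOpens Y) : Γ(Y₁, p ⁻¹ᵁ A) →+ Γ(Y, A) :=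
  letI := algBase ψ
  letI := algY y A
  letI := algP p A
  letI := algQ p q A
  letI := algTot p q ψ A
  haveI := tower_T p q ψ A
  haveI := tower_Y H A
  haveI := algebra_isPushout_sections H A hA
  (pushoutCoord Γ(Y, A) Γ(Y₁, p ⁻¹ᵁ A) e α).toAddMonoidHom

/-- **The retraction of a flat free base change.** -/
def retractionOfBasis : Retraction p (qcqsOpens Y) ι where
  τ := coordFun H e
  lin α A hA b x := by
    letI := algBase ψ
    letI := algY y A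
    letI := algP p A
    letI := algQ p q A
    letI := algTot p q ψ A
    haveI := tower_T p q ψ A
    haveI := tower_Y H A
    haveI := algebra_isPushout_sections H A hA
    exact pushoutCoord_algebraMap_mul e α b x
  nat α A hA A' hA' h x := by
    letI := algBase ψ
    letI := algY y A
    letI := algP p A
    letI := algQ p q A
    letI := algTot p q ψ A
    haveI := tower_T p q ψ A
    haveI := tower_Y H A
    haveI := algebra_isPushout_sections H A hA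
    letI := algY y A'
    letI := algP p A'
    letI := algQ p q A'
    letI := algTot p q ψ A'
    haveI := tower_T p q ψ A'
    haveI := tower_Y H A'
    haveI := algebra_isPushout_sections H A' hA'
    refine pushoutCoord_map e (rs h) (rs (p.preimage_mono h)) (fun s => ?_) (fun r => ?_) α x
    · exact rs_app p h s
    · change rs (p.preimage_mono h) ((q.appLE ⊤ (p ⁻¹ᵁ A) le_top).hom r) =
        (q.appLE ⊤ (p ⁻¹ᵁ A') le_top).hom r
      simp only [rs]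
      rw [← CommRingCat.comp_apply, Scheme.Hom.appLE_map]
  nz A hA x hx := by
    letI := algBase ψ
    letI := algY y A
    letI := algP p A
    letI := algQ p q A
    letI := algTot p q ψ A
    haveI := tower_T p q ψ A
    haveI := tower_Y H A
    haveI := algebra_isPushout_sections H A hA
    exact exists_pushoutCoord_ne_zero e hx

end Retr

end P5FlatBC


section P5FieldDescent

open AlgebraicGeometry CategoryTheory CategoryTheory.Limits TopologicalSpace Opposite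
open Fermat.Agent.S26 Fermat.Agent.S26.Pic

variable {X : Scheme.{u}}

/-- Refinement of a cocycle to smaller opens. -/
@[reducible] def refineCocycle (c : Cocycle X) (N : X → X.Opens) (hN : ∀ x, x ∈ N x)
    (hle : ∀ x, N x ≤ c.U x) : Cocycle X where
  U := N
  mem := hN
  g x y := res (inf_le_inf (hle x) (hle y)) (c.g x y)
  cocycle x y z := by
    simp only [res_res]
    exact c.cocycle_on _ _ _

lemma cl_refineCocycle (c : Cocycle X) (N : X → X.Opens) (hN : ∀ x, x ∈ N x)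
    (hle : ∀ x, N x ≤ c.U x) : cl (refineCocycle c N hN hle) = cl c := by
  rw [cl_eq_cl]
  refine Cocycle.rel_of_eq_on _ _ N hN (fun _ => le_rfl) hle (fun x y => ?_)
  simp only [res_res]

/-- Every cocycle is cohomologous to one with affine opens. -/
lemma exists_affine_cocycle (a : cechPic.Pic X) :
    ∃ c : Cocycle X, cl c = a ∧ ∀ x, IsAffineOpen (c.U x) := by
  obtain ⟨c, rfl⟩ := cl_surjective a
  have : ∀ x : X, ∃ N : X.Opens, IsAffineOpen N ∧ x ∈ N ∧ N ≤ c.U x := by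
    intro x
    obtain ⟨_, ⟨N, hN, rfl⟩, hxN, hle⟩ :=
      X.isBasis_affineOpens.exists_subset_of_mem_open (c.mem x) (c.U x).2
    exact ⟨N, hN, hxN, hle⟩
  choose N hN hxN hle using this
  exact ⟨refineCocycle c N hxN hle, cl_refineCocycle c N hxN hle, hN⟩

section Field

variable {F F' : Type u} [Field F] [Field F'] {Y : Scheme.{u}}

theorem subsingleton_spec_field : Subsingleton (Spec (CommRingCat.of F)) :=
  inferInstanceAs (Subsingleton (PrimeSpectrum F))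

/-- **Field descent.** -/
theorem eq_zero_of_map_pullback_fst_eq_zero (y : Y ⟶ Spec (CommRingCat.of F)) [IsProper y]
    [GeometricallyIntegral y] (ψ : Spec (CommRingCat.of F') ⟶ Spec (CommRingCat.of F))
    (a : cechPic.Pic Y) (h : cechPic.map (pullback.fst y ψ) a = 0) : a = 0 := by
  haveI : Subsingleton (Spec (CommRingCat.of F)) := subsingleton_spec_field
  haveI : AlgebraicGeometry.IsIntegral Y := GeometricallyIntegral.isIntegral_of_subsingleton y
  haveI : AlgebraicGeometry.IsIntegral (pullback y ψ) :=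
    pullback_of_geometrically (GeometricallyIntegral.geometrically_isIntegral (f := y)) F' ψ
  haveI : Nonempty ↥(pullback y ψ : Scheme.{u}) := inferInstance
  haveI : CompactSpace Y := QuasiCompact.compactSpace_of_compactSpace y
  haveI : QuasiSeparatedSpace Y := (quasiSeparated_iff_quasiSeparatedSpace y).mp inferInstance
  have hfield : IsField Γ(Y, ⊤) := isField_of_universallyClosed F y
  obtain ⟨c, rfl, hc⟩ := exists_affine_cocycle a
  have hU : ∀ x, c.U x ∈ qcqsOpens Y := fun x =>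
    ⟨(hc x).isCompact, IsQuasiSeparated.of_quasiSeparatedSpace _⟩
  have hUU : ∀ x x', c.U x ⊓ c.U x' ∈ qcqsOpens Y := fun x x' =>
    ⟨QuasiSeparatedSpace.inter_isCompact _ _ (c.U x).2 (hc x).isCompact (c.U x').2
      (hc x').isCompact, IsQuasiSeparated.of_quasiSeparatedSpace _⟩
  -- the basis
  letI := algBase ψ
  letI : Field Γ(Spec (CommRingCat.of F), ⊤) :=
    ((Scheme.ΓSpecIso (.of F)).commRingCatIsoToRingEquiv.toMulEquiv.isField
      (Field.toIsField F)).toField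
  let e := Module.Free.chooseBasis Γ(Spec (CommRingCat.of F), ⊤) Γ(Spec (CommRingCat.of F'), ⊤)
  exact cl_eq_zero_of_retraction c hfield
    (retractionOfBasis (IsPullback.of_hasPullback y ψ) e) hU hUU h

end Field

end P5FieldDescent


section P5Loc

open AlgebraicGeometry CategoryTheory CategoryTheory.Limits TopologicalSpace Opposite
open Fermat.Agent.S26 Fermat.Agent.S26.Pic

variable {Pη P S T : Scheme.{u}} {ι : Pη ⟶ P} {q : Pη ⟶ T} {pr : P ⟶ S} {ξ : T ⟶ S}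

section Loc

variable (H : IsPullback ι q pr ξ) {S₀ : S.Opens} (hS₀ : IsAffineOpen S₀) (hξ : ⊤ ≤ ξ ⁻¹ᵁ S₀)
  (M : Submonoid Γ(S, S₀))
  (hM : letI := (ξ.appLE S₀ ⊤ hξ).hom.toAlgebra; IsLocalization M Γ(T, ⊤))
  {O : P.Opens} (hO : O ∈ qcqsOpens P) (hOS : O ≤ pr ⁻¹ᵁ S₀)

include H hS₀ hO in
/-- Flat base change of sections over an affine open of the base, as a pushout of rings. -/
theorem isPushout_sections_of_le [IsAffine T] [Flat ξ] :
    IsPushout (pr.appLE S₀ O hOS) (ξ.appLE S₀ ⊤ hξ) (ι.app O) (q.appLE ⊤ (ι ⁻¹ᵁ O) le_top) := by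
  have hUY : ι ⁻¹ᵁ O = ι ⁻¹ᵁ O ⊓ q ⁻¹ᵁ ⊤ := by simp
  have := isIso_pushoutSection_of_isQuasiSeparated_of_flat_right H (US := S₀) (UT := ⊤) (UX := O)
    hξ hOS hUY hS₀ (isAffineOpen_top T) hO.1 hO.2
  rw [Scheme.Hom.app_eq_appLE]
  exact (isIso_pushoutSection_iff H hξ hOS hUY).1 this

include H hS₀ hM hO in
/-- `Γ(Pη, ι⁻¹ O)` is the localisation of `Γ(P, O)` at `M`: numerators and denominators, and
the kernel. -/
theorem exists_num_den [IsAffine T] [Flat ξ] :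
    (∀ x : Γ(Pη, ι ⁻¹ᵁ O), ∃ (a : Γ(P, O)) (r : Γ(S, S₀)), r ∈ M ∧
      x * (ι.app O).hom ((pr.appLE S₀ O hOS).hom r) = (ι.app O).hom a) ∧
    (∀ a : Γ(P, O), (ι.app O).hom a = 0 →
      ∃ r : Γ(S, S₀), r ∈ M ∧ (pr.appLE S₀ O hOS).hom r * a = 0) := by
  letI a1 : Algebra Γ(S, S₀) Γ(T, ⊤) := (ξ.appLE S₀ ⊤ hξ).hom.toAlgebra
  letI a2 : Algebra Γ(S, S₀) Γ(P, O) := (pr.appLE S₀ O hOS).hom.toAlgebra
  letI a3 : Algebra Γ(P, O) Γ(Pη, ι ⁻¹ᵁ O) := (ι.app O).hom.toAlgebra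
  letI a4 : Algebra Γ(T, ⊤) Γ(Pη, ι ⁻¹ᵁ O) := (q.appLE ⊤ (ι ⁻¹ᵁ O) le_top).hom.toAlgebra
  letI a5 : Algebra Γ(S, S₀) Γ(Pη, ι ⁻¹ᵁ O) :=
    ((q.appLE ⊤ (ι ⁻¹ᵁ O) le_top).hom.comp (ξ.appLE S₀ ⊤ hξ).hom).toAlgebra
  haveI t1 : IsScalarTower Γ(S, S₀) Γ(T, ⊤) Γ(Pη, ι ⁻¹ᵁ O) :=
    IsScalarTower.of_algebraMap_eq (fun _ => rfl)
  have hpo := isPushout_sections_of_le H hS₀ hξ hO hOS
  haveI t2 : IsScalarTower Γ(S, S₀) Γ(P, O) Γ(Pη, ι ⁻¹ᵁ O) :=
    IsScalarTower.of_algebraMap_eq (fun r => by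
      have := congrArg (fun f => f.hom r) hpo.w
      exact this.symm)
  haveI : IsLocalization M Γ(T, ⊤) := hM
  haveI hpo' : Algebra.IsPushout Γ(S, S₀) Γ(P, O) Γ(T, ⊤) Γ(Pη, ι ⁻¹ᵁ O) :=
    CommRingCat.isPushout_iff_isPushout.1 hpo
  haveI hloc : IsLocalization (Algebra.algebraMapSubmonoid Γ(P, O) M) Γ(Pη, ι ⁻¹ᵁ O) :=
    (Algebra.isLocalization_iff_isPushout M Γ(T, ⊤)).2 hpo'
  constructor
  · intro x
    obtain ⟨⟨a, m⟩, hx⟩ := IsLocalization.surj (Algebra.algebraMapSubmonoid Γ(P, O) M) x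
    obtain ⟨r, hr, hrm⟩ := m.2
    refine ⟨a, r, hr, ?_⟩
    have : (m : Γ(P, O)) = (pr.appLE S₀ O hOS).hom r := hrm.symm
    rw [← this]
    exact hx
  · intro a ha
    have h0 : algebraMap Γ(P, O) Γ(Pη, ι ⁻¹ᵁ O) a = algebraMap Γ(P, O) Γ(Pη, ι ⁻¹ᵁ O) 0 := by
      rw [map_zero]
      exact ha
    obtain ⟨m, hm⟩ := (IsLocalization.eq_iff_exists (Algebra.algebraMapSubmonoid Γ(P, O) M)
      Γ(Pη, ι ⁻¹ᵁ O)).1 h0
    obtain ⟨r, hr, hrm⟩ := m.2
    refine ⟨r, hr, ?_⟩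
    have : (m : Γ(P, O)) = (pr.appLE S₀ O hOS).hom r := hrm.symm
    rw [← this, hm, mul_zero]

end Loc

end P5Loc


section P5Spread

open AlgebraicGeometry CategoryTheory CategoryTheory.Limits TopologicalSpace Opposite
open Fermat.Agent.S26 Fermat.Agent.S26.Pic

variable {Pη P S T : Scheme.{u}} {ι : Pη ⟶ P} {q : Pη ⟶ T} {pr : P ⟶ S} {ξ : T ⟶ S}

/-- `pr^♯ r` is a unit on every open lying over the basic open of `r`. -/
lemma isUnit_appLE_of_le_basicOpen (pr : P ⟶ S) {S₀ : S.Opens} (r : Γ(S, S₀)) {V : P.Opens}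
    (hV : V ≤ pr ⁻¹ᵁ (S.basicOpen r)) :
    IsUnit ((pr.appLE S₀ V (hV.trans (pr.preimage_mono (S.basicOpen_le r)))).hom r) := by
  have h1 := S.toRingedSpace.isUnit_res_basicOpen r
  have h2 := h1.map (pr.appLE (S.basicOpen r) V hV).hom
  have h3 : S.presheaf.map (homOfLE (S.basicOpen_le r)).op ≫ pr.appLE (S.basicOpen r) V hV =
      pr.appLE S₀ V (hV.trans (pr.preimage_mono (S.basicOpen_le r))) :=
    Scheme.Hom.map_appLE pr hV (homOfLE (S.basicOpen_le r)).op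
  rw [← h3]
  exact h2

lemma basicOpen_le_of_dvd {S₀ : S.Opens} {r r' : Γ(S, S₀)} (h : r ∣ r') :
    S.basicOpen r' ≤ S.basicOpen r := by
  obtain ⟨t, rfl⟩ := h
  rw [Scheme.basicOpen_mul]
  exact inf_le_left

/-- A finite family of properties of elements of a submonoid, each eventually true for the
divisibility order, is simultaneously true somewhere. -/
lemma exists_common_of_finite {R : Type*} [CommMonoid R] (M : Submonoid R) {κ : Type*} [Finite κ]
    (Q : κ → R → Prop) (hmono : ∀ k r r', r ∣ r' → Q k r → Q k r')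
    (hex : ∀ k, ∃ r ∈ M, Q k r) : ∃ r ∈ M, ∀ k, Q k r := by
  classical
  haveI := Fintype.ofFinite κ
  choose r hr hQ using hex
  refine ⟨∏ k, r k, Submonoid.prod_mem M (fun k _ => hr k), fun k => ?_⟩
  exact hmono k (r k) _ (Finset.dvd_prod_of_mem r (Finset.mem_univ k)) (hQ k)

section Spread

variable (H : IsPullback ι q pr ξ) {S₀ : S.Opens} (hS₀ : IsAffineOpen S₀) (hξ : ⊤ ≤ ξ ⁻¹ᵁ S₀)
  (M : Submonoid Γ(S, S₀))
  (hM : letI := (ξ.appLE S₀ ⊤ hξ).hom.toAlgebra; IsLocalization M Γ(T, ⊤))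
  {O : P.Opens} (hO : O ∈ qcqsOpens P) (hOS : O ≤ pr ⁻¹ᵁ S₀)

include H hS₀ hM hO hOS in
/-- An equation valid on the generic fibre is valid over a basic open of the base. -/
theorem exists_res_eq_zero [IsAffine T] [Flat ξ] (a : Γ(P, O)) (ha : (ι.app O).hom a = 0) :
    ∃ r ∈ M, rs (inf_le_left : O ⊓ pr ⁻¹ᵁ (S.basicOpen r) ≤ O) a = 0 := by
  obtain ⟨r, hr, hra⟩ := (exists_num_den H hS₀ hξ M hM hO hOS).2 a ha
  refine ⟨r, hr, ?_⟩
  have hu := isUnit_appLE_of_le_basicOpen pr r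
    (inf_le_right : O ⊓ pr ⁻¹ᵁ (S.basicOpen r) ≤ pr ⁻¹ᵁ (S.basicOpen r))
  have h1 := congrArg (rs (inf_le_left : O ⊓ pr ⁻¹ᵁ (S.basicOpen r) ≤ O)) hra
  rw [map_mul, map_zero] at h1
  have h2 : rs (inf_le_left : O ⊓ pr ⁻¹ᵁ (S.basicOpen r) ≤ O) ((pr.appLE S₀ O hOS).hom r) =
      (pr.appLE S₀ (O ⊓ pr ⁻¹ᵁ (S.basicOpen r))
        (inf_le_right.trans (pr.preimage_mono (S.basicOpen_le r)))).hom r := by
    simp only [rs]
    rw [← CommRingCat.comp_apply, Scheme.Hom.appLE_map]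
  rw [h2] at h1
  exact hu.mul_right_eq_zero.1 h1

include H hS₀ hM hO hOS in
/-- A unit on the generic fibre spreads out over a basic open of the base. -/
theorem exists_unit_spread [IsAffine T] [Flat ξ] (h : Γ(Pη, ι ⁻¹ᵁ O)ˣ) :
    ∃ r ∈ M, ∃ s : Γ(P, O ⊓ pr ⁻¹ᵁ (S.basicOpen r))ˣ,
      pull ι (le_refl (ι ⁻¹ᵁ (O ⊓ pr ⁻¹ᵁ (S.basicOpen r)))) s =
        res (ι.preimage_mono inf_le_left) h := by
  obtain ⟨a, r₁, hr₁, ha⟩ := (exists_num_den H hS₀ hξ M hM hO hOS).1 (h : Γ(Pη, ι ⁻¹ᵁ O))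
  obtain ⟨b, r₂, hr₂, hb⟩ := (exists_num_den H hS₀ hξ M hM hO hOS).1
    ((h⁻¹ : Γ(Pη, ι ⁻¹ᵁ O)ˣ) : Γ(Pη, ι ⁻¹ᵁ O))
  set φ := (pr.appLE S₀ O hOS).hom with hφ
  have hab : (ι.app O).hom (a * b - φ (r₁ * r₂)) = 0 := by
    rw [map_sub, map_mul, map_mul, map_mul, ← ha, ← hb, sub_eq_zero]
    rw [mul_mul_mul_comm, Units.mul_inv, one_mul]
  obtain ⟨r₃, hr₃, h3⟩ := (exists_num_den H hS₀ hξ M hM hO hOS).2 _ hab
  refine ⟨r₁ * r₂ * r₃, M.mul_mem (M.mul_mem hr₁ hr₂) hr₃, ?_⟩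
  set r := r₁ * r₂ * r₃ with hr
  set O' : P.Opens := O ⊓ pr ⁻¹ᵁ (S.basicOpen r) with hO'
  have hle : O' ≤ O := inf_le_left
  have hO'S : O' ≤ pr ⁻¹ᵁ S₀ := hle.trans hOS
  set φ' := (pr.appLE S₀ O' hO'S).hom with hφ'
  have hφφ' : ∀ t, rs hle (φ t) = φ' t := by
    intro t
    simp only [rs, hφ, hφ']
    rw [← CommRingCat.comp_apply, Scheme.Hom.appLE_map]
  have hunit : ∀ t : Γ(S, S₀), t ∣ r → IsUnit (φ' t) := by
    intro t ht
    exact isUnit_appLE_of_le_basicOpen pr t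
      ((inf_le_right : O' ≤ pr ⁻¹ᵁ (S.basicOpen r)).trans
        (pr.preimage_mono (basicOpen_le_of_dvd ht)))
  have hu1 : IsUnit (φ' r₁) := hunit r₁ ⟨r₂ * r₃, by rw [hr, mul_assoc]⟩
  have hu2 : IsUnit (φ' r₂) := hunit r₂ ⟨r₁ * r₃, by rw [hr]; ring⟩
  have hu3 : IsUnit (φ' r₃) := hunit r₃ ⟨r₁ * r₂, by rw [hr]; ring⟩
  -- `a * b = r₁ * r₂` on `O'`
  have h4 : rs hle a * rs hle b = φ' r₁ * φ' r₂ := by
    have := congrArg (rs hle) h3
    rw [map_mul, map_zero, hφφ', map_sub, map_mul, hφφ', map_mul] at this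
    exact sub_eq_zero.1 (hu3.mul_right_eq_zero.1 this)
  have hua : IsUnit (rs hle a) :=
    isUnit_of_mul_isUnit_left (h4 ▸ hu1.mul hu2)
  refine ⟨hua.unit * hu1.unit⁻¹, ?_⟩
  apply Units.ext
  rw [coe_pull, coe_res, Units.val_mul, map_mul, IsUnit.unit_spec]
  -- compute
  have e1 : (ι.appLE O' (ι ⁻¹ᵁ O') le_rfl).hom (rs hle a) =
      rs (ι.preimage_mono hle) ((ι.app O).hom a) := by
    rw [appLE_eq_rs_app, rs_self, rs_app ι hle]
  have e2 : (ι.appLE O' (ι ⁻¹ᵁ O') le_rfl).hom (φ' r₁) =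
      rs (ι.preimage_mono hle) ((ι.app O).hom (φ r₁)) := by
    rw [appLE_eq_rs_app, rs_self, rs_app ι hle, hφφ']
  have e3 : (ι.appLE O' (ι ⁻¹ᵁ O') le_rfl).hom (φ' r₁) *
      (ι.appLE O' (ι ⁻¹ᵁ O') le_rfl).hom ((hu1.unit⁻¹ : Γ(P, O')ˣ) : Γ(P, O')) = 1 := by
    rw [← map_mul]
    have : φ' r₁ * ((hu1.unit⁻¹ : Γ(P, O')ˣ) : Γ(P, O')) = 1 := by
      have := hu1.unit.mul_inv
      rwa [IsUnit.unit_spec] at this
    rw [this, map_one]
  rw [e1, ← ha, map_mul, ← e2, mul_assoc, e3, mul_one]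

end Spread

end P5Spread


section P5SpreadMain

open AlgebraicGeometry CategoryTheory CategoryTheory.Limits TopologicalSpace Opposite
open Fermat.Agent.S26 Fermat.Agent.S26.Pic

variable {Pη P S T : Scheme.{u}} {ι : Pη ⟶ P} {q : Pη ⟶ T} {pr : P ⟶ S} {ξ : T ⟶ S}

section Main

variable (H : IsPullback ι q pr ξ) {S₀ : S.Opens} (hS₀ : IsAffineOpen S₀) (hξ : ⊤ ≤ ξ ⁻¹ᵁ S₀)
  (M : Submonoid Γ(S, S₀))
  (hM : letI := (ξ.appLE S₀ ⊤ hξ).hom.toAlgebra; IsLocalization M Γ(T, ⊤))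

include H hξ in
lemma pr_ι_mem (y : Pη) : pr (ι y) ∈ S₀ := by
  have h1 : (ι ≫ pr) y = (q ≫ ξ) y := by rw [H.w]
  have h2 : ξ (q y) ∈ S₀ := hξ (show q y ∈ (⊤ : T.Opens) from trivial)
  have h3 : pr (ι y) = ξ (q y) := h1
  rw [h3]
  exact h2

include H hS₀ hM in
/-- **Spreading out a trivialisation**, abstract form. -/
theorem exists_trivData_of_generic [IsAffine T] [Flat ξ] [CompactSpace Pη]
    (hind : Topology.IsInducing ι) (hqs : IsQuasiSeparated (pr ⁻¹ᵁ S₀ : Set P))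
    (hcover : ∀ Ω : P.Opens, ι ⁻¹ᵁ Ω = ⊤ → ∃ r ∈ M, pr ⁻¹ᵁ (S.basicOpen r) ≤ Ω)
    (c : Cocycle P) (h : cl (c.pullback ι) = 0) :
    ∃ r ∈ M, ∃ (κ : Type u) (D : TrivData c κ), pr ⁻¹ᵁ (S.basicOpen r) ≤ D.support := by
  classical
  rw [cl_eq_zero_iff] at h
  obtain ⟨V, hV, hc, hh, Hh⟩ := h
  -- restricted form of `Hh`
  have Hh' : ∀ (y y' : Pη) (Ω : Pη.Opens) (hy : Ω ≤ V y) (hy' : Ω ≤ V y'),
      pull ι (le_inf (hy.trans (hc y)) (hy'.trans (hc y')) :
        Ω ≤ ι ⁻¹ᵁ (c.U (ι y) ⊓ c.U (ι y'))) (c.g (ι y) (ι y')) * res hy' (hh y') =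
        res hy (hh y) := by
    intro y y' Ω hy hy'
    have := congrArg (res (le_inf hy hy')) (Hh y y')
    rw [Cocycle.res_pullback_g] at this
    simpa only [map_mul, res_res, res_pull] using this
  -- Step 0: affine opens of `P` adapted to the trivialisation
  have hO : ∀ y : Pη, ∃ O : P.Opens, IsAffineOpen O ∧ ι y ∈ O ∧ O ≤ c.U (ι y) ∧
      O ≤ pr ⁻¹ᵁ S₀ ∧ ι ⁻¹ᵁ O ≤ V y := by
    intro y
    obtain ⟨t, ht, hty⟩ := hind.isOpen_iff.1 (V y).2
    have hyt : ι y ∈ t := by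
      have : y ∈ (ι ⁻¹' t : Set Pη) := by rw [hty]; exact hV y
      exact this
    let N : P.Opens := (⟨t, ht⟩ : P.Opens) ⊓ c.U (ι y) ⊓ pr ⁻¹ᵁ S₀
    have hyN : ι y ∈ N := ⟨⟨hyt, c.mem _⟩, pr_ι_mem H hξ y⟩
    obtain ⟨_, ⟨O, hOaff, rfl⟩, hyO, hON⟩ :=
      P.isBasis_affineOpens.exists_subset_of_mem_open hyN N.2
    refine ⟨O, hOaff, hyO, fun z hz => (hON hz).1.2, fun z hz => (hON hz).2, fun z hz => ?_⟩
    have : ι z ∈ t := (hON hz).1.1
    have : z ∈ (ι ⁻¹' t : Set Pη) := this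
    rw [hty] at this
    exact this
  choose O hOaff hyO hOU hOS hOV using hO
  -- finite subcover
  obtain ⟨t, ht⟩ := isCompact_univ.elim_finite_subcover (fun y : Pη => ((ι ⁻¹ᵁ O y : Pη.Opens) : Set Pη))
    (fun y => (ι ⁻¹ᵁ O y).2) (fun y _ => Set.mem_iUnion.2 ⟨y, hyO y⟩)
  let κ : Type u := {y : Pη // y ∈ t}
  haveI : Finite κ := Finite.of_fintype κ
  have hcov : ∀ y : Pη, ∃ k : κ, y ∈ ι ⁻¹ᵁ O k.1 := by
    intro y
    obtain ⟨k, hk⟩ := Set.mem_iUnion.1 (ht (Set.mem_univ y))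
    obtain ⟨hkt, hk'⟩ := Set.mem_iUnion.1 hk
    exact ⟨⟨k, hkt⟩, hk'⟩
  have hqc : ∀ k : κ, O k.1 ∈ qcqsOpens P := fun k =>
    ⟨(hOaff k.1).isCompact, (hOaff k.1).isQuasiSeparated⟩
  -- Step 1: the units spread out
  obtain ⟨r₁, hr₁, hs₁⟩ := exists_common_of_finite M
    (fun (k : κ) (r : Γ(S, S₀)) => ∃ s : Γ(P, O k.1 ⊓ pr ⁻¹ᵁ (S.basicOpen r))ˣ,
      pull ι (le_refl (ι ⁻¹ᵁ (O k.1 ⊓ pr ⁻¹ᵁ (S.basicOpen r)))) s =
        res ((ι.preimage_mono inf_le_left).trans (hOV k.1)) (hh k.1))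
    (by
      rintro k r r' hrr' ⟨s, hs⟩
      refine ⟨res (inf_le_inf le_rfl (pr.preimage_mono (basicOpen_le_of_dvd hrr'))) s, ?_⟩
      rw [pull_res]
      have := congrArg (res (ι.preimage_mono
        (inf_le_inf le_rfl (pr.preimage_mono (basicOpen_le_of_dvd hrr'))) :
        ι ⁻¹ᵁ (O k.1 ⊓ pr ⁻¹ᵁ (S.basicOpen r')) ≤ ι ⁻¹ᵁ (O k.1 ⊓ pr ⁻¹ᵁ (S.basicOpen r)))) hs
      rw [res_pull, res_res] at this
      exact this)
    (by
      intro k
      obtain ⟨r, hr, s, hs⟩ := exists_unit_spread H hS₀ hξ M hM (hqc k) (hOS k.1)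
        (res (hOV k.1) (hh k.1))
      refine ⟨r, hr, s, ?_⟩
      rw [hs, res_res])
  choose s₁ hs₁ using hs₁
  -- Step 2: the relations spread out
  let O₁ : κ → P.Opens := fun k => O k.1 ⊓ pr ⁻¹ᵁ (S.basicOpen r₁)
  have hO₁O : ∀ k, O₁ k ≤ O k.1 := fun k => inf_le_left
  have hO₁aff : ∀ k, IsAffineOpen (O₁ k) := by
    intro k
    have := (hOaff k.1).basicOpen ((pr.appLE S₀ (O k.1) (hOS k.1)).hom r₁)
    rwa [Scheme.basicOpen_appLE] at this
  let O₂ : κ × κ → P.Opens := fun kl => O₁ kl.1 ⊓ O₁ kl.2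
  have hO₂S : ∀ kl, O₂ kl ≤ pr ⁻¹ᵁ S₀ := fun kl =>
    (inf_le_left.trans (hO₁O kl.1)).trans (hOS kl.1.1)
  have hO₂ : ∀ kl, O₂ kl ∈ qcqsOpens P := fun kl =>
    ⟨hqs (O₁ kl.1) (O₁ kl.2) ((hO₁O kl.1).trans (hOS kl.1.1)) (O₁ kl.1).2 (hO₁aff kl.1).isCompact
      ((hO₁O kl.2).trans (hOS kl.2.1)) (O₁ kl.2).2 (hO₁aff kl.2).isCompact,
      hqs.of_subset (hO₂S kl)⟩
  let u : ∀ kl : κ × κ, Γ(P, O₂ kl)ˣ := fun kl =>
    res (le_inf ((inf_le_left.trans (hO₁O kl.1)).trans (hOU kl.1.1))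
      ((inf_le_right.trans (hO₁O kl.2)).trans (hOU kl.2.1)))
      (c.g (ι kl.1.1) (ι kl.2.1)) * res inf_le_right (s₁ kl.2)
  let v : ∀ kl : κ × κ, Γ(P, O₂ kl)ˣ := fun kl => res inf_le_left (s₁ kl.1)
  have huv : ∀ kl : κ × κ, pull ι (le_refl (ι ⁻¹ᵁ O₂ kl)) (u kl) =
      pull ι (le_refl (ι ⁻¹ᵁ O₂ kl)) (v kl) := by
    intro kl
    have e1 : ι ⁻¹ᵁ O₂ kl ≤ V kl.1.1 :=
      (ι.preimage_mono (inf_le_left.trans (hO₁O kl.1))).trans (hOV kl.1.1)
    have e2 : ι ⁻¹ᵁ O₂ kl ≤ V kl.2.1 :=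
      (ι.preimage_mono (inf_le_right.trans (hO₁O kl.2))).trans (hOV kl.2.1)
    have h1 := congrArg (res (ι.preimage_mono inf_le_left : ι ⁻¹ᵁ O₂ kl ≤ ι ⁻¹ᵁ O₁ kl.1))
      (hs₁ kl.1)
    have h2 := congrArg (res (ι.preimage_mono inf_le_right : ι ⁻¹ᵁ O₂ kl ≤ ι ⁻¹ᵁ O₁ kl.2))
      (hs₁ kl.2)
    rw [res_pull, res_res] at h1 h2
    simp only [u, v, map_mul, pull_res]
    rw [h1, h2]
    exact Hh' kl.1.1 kl.2.1 _ e1 e2
  obtain ⟨r₂, hr₂, hrel⟩ := exists_common_of_finite M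
    (fun (kl : κ × κ) (r : Γ(S, S₀)) =>
      rs (inf_le_left : O₂ kl ⊓ pr ⁻¹ᵁ (S.basicOpen r) ≤ O₂ kl)
        ((u kl : Γ(P, O₂ kl)) - (v kl : Γ(P, O₂ kl))) = 0)
    (by
      intro kl r r' hrr' hzero
      have := congrArg (rs (inf_le_inf le_rfl (pr.preimage_mono (basicOpen_le_of_dvd hrr')) :
        O₂ kl ⊓ pr ⁻¹ᵁ (S.basicOpen r') ≤ O₂ kl ⊓ pr ⁻¹ᵁ (S.basicOpen r))) hzero
      rw [rs_rs, map_zero] at this
      exact this)
    (by
      intro kl
      apply exists_res_eq_zero H hS₀ hξ M hM (hO₂ kl) (hO₂S kl)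
      rw [map_sub, sub_eq_zero]
      have := congrArg (fun w : Γ(Pη, ι ⁻¹ᵁ O₂ kl)ˣ => (w : Γ(Pη, ι ⁻¹ᵁ O₂ kl))) (huv kl)
      simp only [coe_pull, appLE_eq_rs_app, rs_self] at this
      exact this)
  -- Step 3: the cover
  obtain ⟨r₃, hr₃, hΩ⟩ := hcover (⨆ k : κ, O k.1) (by
    apply le_antisymm le_top
    intro y _
    obtain ⟨k, hk⟩ := hcov y
    exact Opens.mem_iSup.2 ⟨k, hk⟩)
  -- assemble
  set r := r₁ * r₂ * r₃ with hr
  have hrr₁ : S.basicOpen r ≤ S.basicOpen r₁ := basicOpen_le_of_dvd ⟨r₂ * r₃, by rw [hr, mul_assoc]⟩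
  have hrr₂ : S.basicOpen r ≤ S.basicOpen r₂ := basicOpen_le_of_dvd ⟨r₁ * r₃, by rw [hr]; ring⟩
  have hrr₃ : S.basicOpen r ≤ S.basicOpen r₃ := basicOpen_le_of_dvd ⟨r₁ * r₂, by rw [hr]; ring⟩
  refine ⟨r, M.mul_mem (M.mul_mem hr₁ hr₂) hr₃, κ,
    { O := fun k => O k.1 ⊓ pr ⁻¹ᵁ (S.basicOpen r)
      z := fun k => ι k.1
      le := fun k => inf_le_left.trans (hOU k.1)
      s := fun k => res (inf_le_inf le_rfl (pr.preimage_mono hrr₁)) (s₁ k)
      eq := ?_ }, ?_⟩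
  · intro k l
    have hle : (O k.1 ⊓ pr ⁻¹ᵁ (S.basicOpen r)) ⊓ (O l.1 ⊓ pr ⁻¹ᵁ (S.basicOpen r)) ≤
        O₂ (k, l) ⊓ pr ⁻¹ᵁ (S.basicOpen r₂) :=
      le_inf (inf_le_inf (inf_le_inf le_rfl (pr.preimage_mono hrr₁))
        (inf_le_inf le_rfl (pr.preimage_mono hrr₁)))
        ((inf_le_left.trans inf_le_right).trans (pr.preimage_mono hrr₂))
    have := congrArg (rs hle) (hrel (k, l))
    rw [rs_rs, map_zero, map_sub, sub_eq_zero] at this
    apply Units.ext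
    simp only [Units.val_mul, coe_res, rs_rs]
    simp only [u, v, Units.val_mul, coe_res, map_mul, rs_rs] at this
    exact this
  · intro z hz
    have hz3 : z ∈ pr ⁻¹ᵁ (S.basicOpen r₃) := pr.preimage_mono hrr₃ hz
    obtain ⟨k, hk⟩ := Opens.mem_iSup.1 (hΩ hz3)
    exact Opens.mem_iSup.2 ⟨k, hk, hz⟩

end Main

end P5SpreadMain


section P5Generic

open AlgebraicGeometry CategoryTheory CategoryTheory.Limits TopologicalSpace Opposite
open Fermat.Agent.S26 Fermat.Agent.S26.Pic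

variable {P S : Scheme.{u}}

/-- `Spec 𝒪_{S,x} ⟶ S` is flat. -/
theorem flat_fromSpecStalk (S : Scheme.{u}) (x : S) : Flat (S.fromSpecStalk x) := by
  obtain ⟨_, ⟨U, hU, rfl⟩, hxU, -⟩ :=
    S.isBasis_affineOpens.exists_subset_of_mem_open (Set.mem_univ x) isOpen_univ
  rw [← hU.fromSpecStalk_eq_fromSpecStalk hxU, IsAffineOpen.fromSpecStalk]
  haveI : Flat (Spec.map (S.presheaf.germ U x hxU)) := by
    rw [HasRingHomProperty.Spec_iff (P := @Flat)]
    letI : Algebra Γ(S, U) (S.presheaf.stalk x) := (S.presheaf.germ U x hxU).hom.toAlgebra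
    haveI := hU.isLocalization_stalk ⟨x, hxU⟩
    exact (RingHom.flat_algebraMap_iff).2
      (IsLocalization.flat _ (hU.primeIdealOf ⟨x, hxU⟩).asIdeal.primeCompl)
  infer_instance

section Stalk

variable {S₀ : S.Opens} (hS₀ : IsAffineOpen S₀) {x : S} (hx : x ∈ S₀)

include hx in
lemma top_le_preimage_fromSpecStalk : ⊤ ≤ (S.fromSpecStalk x) ⁻¹ᵁ S₀ := by
  intro t _
  have h1 : (S.fromSpecStalk x) t ∈ Set.range (S.fromSpecStalk x) := ⟨t, rfl⟩
  rw [Scheme.range_fromSpecStalk] at h1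
  exact h1.mem_open S₀.2 hx

lemma fromSpecStalk_appLE_top :
    (S.fromSpecStalk x).appLE S₀ ⊤ (top_le_preimage_fromSpecStalk hx) =
      S.presheaf.germ S₀ x hx ≫ (Scheme.ΓSpecIso (S.presheaf.stalk x)).inv := by
  rw [Scheme.Hom.appLE, Scheme.fromSpecStalk_app hx, Category.assoc, Category.assoc,
    ← Functor.map_comp]
  have : ((homOfLE le_top :
      (S.fromSpecStalk x) ⁻¹ᵁ S₀ ⟶ (⊤ : (Spec (S.presheaf.stalk x)).Opens)).op ≫
      (homOfLE (top_le_preimage_fromSpecStalk hx)).op) = 𝟙 _ := rfl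
  rw [this, CategoryTheory.Functor.map_id, Category.comp_id]

include hS₀ in
/-- `Γ(Spec 𝒪_{S,x})` is the localisation of `Γ(S, S₀)` at the prime of `x`. -/
lemma isLocalization_ΓSpec_stalk :
    letI := ((S.fromSpecStalk x).appLE S₀ ⊤ (top_le_preimage_fromSpecStalk hx)).hom.toAlgebra
    IsLocalization (hS₀.primeIdealOf ⟨x, hx⟩).asIdeal.primeCompl
      Γ(Spec (S.presheaf.stalk x), ⊤) := by
  letI a0 : Algebra Γ(S, S₀) Γ(Spec (S.presheaf.stalk x), ⊤) :=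
    ((S.fromSpecStalk x).appLE S₀ ⊤ (top_le_preimage_fromSpecStalk hx)).hom.toAlgebra
  letI a1 : Algebra Γ(S, S₀) (S.presheaf.stalk x) := (S.presheaf.germ S₀ x hx).hom.toAlgebra
  haveI hloc : IsLocalization (hS₀.primeIdealOf ⟨x, hx⟩).asIdeal.primeCompl
      (S.presheaf.stalk x) := hS₀.isLocalization_stalk ⟨x, hx⟩
  let e : S.presheaf.stalk x ≃+* Γ(Spec (S.presheaf.stalk x), ⊤) :=
    (Scheme.ΓSpecIso (S.presheaf.stalk x)).symm.commRingCatIsoToRingEquiv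
  let e' : S.presheaf.stalk x ≃ₐ[Γ(S, S₀)] Γ(Spec (S.presheaf.stalk x), ⊤) :=
    { e with
      commutes' := fun r => by
        have := congrArg (fun f => f.hom r) (fromSpecStalk_appLE_top (S₀ := S₀) hx)
        exact this.symm }
  exact IsLocalization.isLocalization_of_algEquiv _ e'

include hS₀ in
lemma mem_primeCompl_iff_mem_basicOpen (r : Γ(S, S₀)) :
    r ∈ (hS₀.primeIdealOf ⟨x, hx⟩).asIdeal.primeCompl ↔ x ∈ S.basicOpen r := by
  letI a1 : Algebra Γ(S, S₀) (S.presheaf.stalk x) := (S.presheaf.germ S₀ x hx).hom.toAlgebra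
  haveI hloc : IsLocalization.AtPrime (S.presheaf.stalk x) (hS₀.primeIdealOf ⟨x, hx⟩).asIdeal :=
    hS₀.isLocalization_stalk ⟨x, hx⟩
  rw [Scheme.mem_basicOpen S r x hx,
    ← IsLocalization.AtPrime.isUnit_to_map_iff (S.presheaf.stalk x)
      (hS₀.primeIdealOf ⟨x, hx⟩).asIdeal r]
  rfl

end Stalk

/-- **Spreading out** a trivial class from the local ring of a point to a neighbourhood. -/
theorem exists_open_of_map_fromSpecStalk_eq_zero (pr : P ⟶ S) [QuasiCompact pr]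
    [QuasiSeparated pr] (hcl : IsClosedMap pr) (x : S) (a : cechPic.Pic P)
    (h : cechPic.map (pullback.fst pr (S.fromSpecStalk x)) a = 0) :
    ∃ U : S.Opens, x ∈ U ∧
      ∀ {P' : Scheme.{u}} (f : P' ⟶ P), (∀ p', pr (f p') ∈ U) → cechPic.map f a = 0 := by
  obtain ⟨c, rfl⟩ := cl_surjective a
  obtain ⟨_, ⟨S₀, hS₀, rfl⟩, hx, -⟩ :=
    S.isBasis_affineOpens.exists_subset_of_mem_open (Set.mem_univ x) isOpen_univ
  haveI : Flat (S.fromSpecStalk x) := flat_fromSpecStalk S x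
  set ξ := S.fromSpecStalk x with hξdef
  set ι := pullback.fst pr ξ with hι
  have H : IsPullback ι (pullback.snd pr ξ) pr ξ := IsPullback.of_hasPullback pr ξ
  have hξ : ⊤ ≤ ξ ⁻¹ᵁ S₀ := top_le_preimage_fromSpecStalk hx
  set M := (hS₀.primeIdealOf ⟨x, hx⟩).asIdeal.primeCompl with hMdef
  haveI : CompactSpace ↥(pullback pr ξ : Scheme.{u}) :=
    QuasiCompact.compactSpace_of_compactSpace (pullback.snd pr ξ)
  have hind : Topology.IsInducing ι := (Scheme.Hom.isEmbedding ι).isInducing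
  have hqs : IsQuasiSeparated (pr ⁻¹ᵁ S₀ : Set P) :=
    pr.isQuasiSeparated_preimage hS₀.isQuasiSeparated
  have hcover : ∀ Ω : P.Opens, ι ⁻¹ᵁ Ω = ⊤ → ∃ r ∈ M, pr ⁻¹ᵁ (S.basicOpen r) ≤ Ω := by
    intro Ω hΩ
    have hZ : IsClosed ((Ω : Set P)ᶜ) := Ω.2.isClosed_compl
    have hpZ : IsClosed (pr '' ((Ω : Set P)ᶜ)) := hcl _ hZ
    have hxZ : x ∉ pr '' ((Ω : Set P)ᶜ) := by
      rintro ⟨z, hz, hzx⟩
      have hzr : z ∈ Set.range ι := by
        rw [hι, Scheme.Pullback.range_fst]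
        refine ⟨IsLocalRing.closedPoint (S.presheaf.stalk x), ?_⟩
        rw [hzx]
        exact Scheme.fromSpecStalk_closedPoint
      obtain ⟨y, rfl⟩ := hzr
      have : y ∈ ι ⁻¹ᵁ Ω := by rw [hΩ]; trivial
      exact hz this
    let U' : S.Opens := ⟨(pr '' ((Ω : Set P)ᶜ))ᶜ, hpZ.isOpen_compl⟩
    obtain ⟨r, hrU', hxr⟩ := hS₀.exists_basicOpen_le (V := U') ⟨x, hxZ⟩ hx
    refine ⟨r, (mem_primeCompl_iff_mem_basicOpen hS₀ hx r).2 hxr, fun z hz => ?_⟩
    by_contra hzΩ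
    exact hrU' hz ⟨z, hzΩ, rfl⟩
  obtain ⟨r, hr, κ, D, hD⟩ := exists_trivData_of_generic H hS₀ hξ M
    (isLocalization_ΓSpec_stalk hS₀ hx) hind hqs hcover c h
  refine ⟨S.basicOpen r, (mem_primeCompl_iff_mem_basicOpen hS₀ hx r).1 hr, fun f hf => ?_⟩
  exact D.cl_pullback_eq_zero f (fun p' => hD (hf p'))

end P5Generic


section P5Core

open AlgebraicGeometry CategoryTheory CategoryTheory.Limits TopologicalSpace Opposite
open Fermat.Agent.S26 Fermat.Agent.S26.Pic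

variable {K : Type u} [Field K] {S W : Scheme.{u}}

/-- **P5, core form.** -/
theorem genericSpread_core [IsIntegral S] (s : S ⟶ Spec (CommRingCat.of K))
    (w : W ⟶ Spec (CommRingCat.of K)) [IsProper w] [GeometricallyIntegral w]
    (c : cechPic.Pic (pullback s w)) (F : Type u) [Field F]
    (φ : Spec (CommRingCat.of F) ⟶ S) (hφ : ∀ pt, φ pt = genericPoint S)
    (h₁ : (φ ≫ s) ≫ 𝟙 _ = φ ≫ s) (h₂ : w ≫ 𝟙 _ = 𝟙 W ≫ w)
    (h : cechPic.map (pullback.map (φ ≫ s) w s w φ (𝟙 W) (𝟙 _) h₁ h₂) c = 0) :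
    ∃ U : S.Opens, (U : Set S).Nonempty ∧
      ∀ (h₁' : (U.ι ≫ s) ≫ 𝟙 _ = U.ι ≫ s) (h₂' : w ≫ 𝟙 _ = 𝟙 W ≫ w),
        cechPic.map (pullback.map (U.ι ≫ s) w s w U.ι (𝟙 W) (𝟙 _) h₁' h₂') c = 0 := by
  set pr := pullback.fst s w with hpr
  have hcl : IsClosedMap pr := pr.isClosedMap
  -- the key statement, for a variable point `x`
  have key : ∀ (x : S) (_ : x = genericPoint S) (χ : S.presheaf.stalk x ⟶ CommRingCat.of F)
      (_ : Spec.map χ ≫ S.fromSpecStalk x = φ),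
      cechPic.map (pullback.fst pr (S.fromSpecStalk x)) c = 0 := by
    intro x hx χ hχ
    subst hx
    set ξ := S.fromSpecStalk (genericPoint S) with hξ
    set ι := pullback.fst pr ξ with hι
    let y : pullback pr ξ ⟶ Spec (CommRingCat.of ↑(S.functionField)) := pullback.snd pr ξ
    let ψ : Spec (CommRingCat.of F) ⟶ Spec (CommRingCat.of ↑(S.functionField)) := Spec.map χ
    haveI : IsProper y := inferInstanceAs (IsProper (pullback.snd pr ξ))
    haveI : GeometricallyIntegral y := inferInstanceAs (GeometricallyIntegral (pullback.snd pr ξ))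
    apply eq_zero_of_map_pullback_fst_eq_zero y ψ
    -- the comparison map
    have hcomp : pullback.snd y ψ ≫ φ ≫ s = (pullback.fst y ψ ≫ ι ≫ pullback.snd s w) ≫ w := by
      have e1 : pullback.fst y ψ ≫ y = pullback.snd y ψ ≫ ψ := pullback.condition
      have e2 : ι ≫ pr = y ≫ ξ := pullback.condition
      have e3 : pr ≫ s = pullback.snd s w ≫ w := pullback.condition
      calc pullback.snd y ψ ≫ φ ≫ s = (pullback.snd y ψ ≫ ψ) ≫ ξ ≫ s := by
            rw [← hχ]; simp only [Category.assoc]; rfl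
        _ = (pullback.fst y ψ ≫ y) ≫ ξ ≫ s := by rw [e1]
        _ = pullback.fst y ψ ≫ (y ≫ ξ) ≫ s := by simp only [Category.assoc]
        _ = pullback.fst y ψ ≫ (ι ≫ pr) ≫ s := by rw [e2]
        _ = pullback.fst y ψ ≫ ι ≫ pr ≫ s := by simp only [Category.assoc]
        _ = pullback.fst y ψ ≫ ι ≫ pullback.snd s w ≫ w := by rw [e3]
        _ = (pullback.fst y ψ ≫ ι ≫ pullback.snd s w) ≫ w := by simp only [Category.assoc]
    let e : pullback y ψ ⟶ pullback (φ ≫ s) w :=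
      pullback.lift (pullback.snd y ψ) (pullback.fst y ψ ≫ ι ≫ pullback.snd s w) hcomp
    have he : e ≫ pullback.map (φ ≫ s) w s w φ (𝟙 W) (𝟙 _) h₁ h₂ = pullback.fst y ψ ≫ ι := by
      apply pullback.hom_ext
      · have e1 : pullback.fst y ψ ≫ y = pullback.snd y ψ ≫ ψ := pullback.condition
        have e2 : ι ≫ pr = y ≫ ξ := pullback.condition
        rw [Category.assoc, pullback.lift_fst, ← Category.assoc, pullback.lift_fst,
          Category.assoc]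
        change pullback.snd y ψ ≫ φ = pullback.fst y ψ ≫ ι ≫ pr
        rw [e2, ← Category.assoc, e1, Category.assoc, ← hχ]
      · rw [Category.assoc, pullback.lift_snd, ← Category.assoc, pullback.lift_snd,
          Category.comp_id, Category.assoc]
    rw [← cechPic.map_comp, ← he, cechPic.map_comp, h, map_zero]
  have hkey := key (φ (IsLocalRing.closedPoint F)) (hφ _) (Scheme.stalkClosedPointTo φ)
    (Scheme.Spec_stalkClosedPointTo_fromSpecStalk φ)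
  obtain ⟨U, hxU, hU⟩ := exists_open_of_map_fromSpecStalk_eq_zero pr hcl _ c hkey
  refine ⟨U, ⟨_, hxU⟩, fun h₁' h₂' => hU _ (fun p' => ?_)⟩
  have : pullback.map (U.ι ≫ s) w s w U.ι (𝟙 W) (𝟙 _) h₁' h₂' ≫ pr =
      pullback.fst (U.ι ≫ s) w ≫ U.ι := pullback.lift_fst _ _ _
  have h3 := congrArg (fun g : pullback (U.ι ≫ s) w ⟶ S => g p') this
  simp only [Scheme.Hom.comp_apply] at h3
  rw [h3]
  exact (pullback.fst (U.ι ≫ s) w p').2

end P5Core


end

end Fermat.Agent.S26.H925
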