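import Fermat.Agent.S26.SpecCube
import Fermat.Agent.S26.Cube.Spec
import Fermat.Agent.S26.H925.P5Lib

/-!
# Row S26, block PIC, leaf P5 (helper925): generic triviality for the Čech model

`genericTrivial : Stmt.GenericTrivial cechPic K` (frozen form of `SpecCube.lean`) and
`genericSpread : Cube.GenericSpread cechPic K` (frozen form of `Cube/Spec.lean`), both from
`genericSpread_core` (field descent + spreading out).  `K` is any field.
-/

set_option autoImplicit false

open AlgebraicGeometry CategoryTheory CategoryTheory.Limits

universe u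

namespace Fermat.Agent.S26.H925

open Fermat.Agent.S26 Fermat.Agent.S26.Pic

/-- **P5**, frozen form of `SpecCube.lean`. -/
theorem genericTrivial (K : Type u) [Field K] [IsAlgClosed K] :
    Stmt.GenericTrivial cechPic.{u} K := by
  intro X W x w _ _ _ _ N K' _ _ ξ hξ h
  obtain ⟨U, hU, hU'⟩ := genericSpread_core x w N K' ξ hξ (by simp) (by simp) h
  exact ⟨U, hU, hU' (by simp) (by simp)⟩

/-- **P5**, frozen form of `Cube/Spec.lean`. -/
theorem genericSpread (K : Type u) [Field K] [IsAlgClosed K] :
    Cube.GenericSpread cechPic.{u} K := by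
  intro S W _ s w _ _ _ c F _ _ φ hφ h
  obtain ⟨U, hU, hU'⟩ := genericSpread_core s w c F φ hφ (by simp) (by simp) h
  exact ⟨U, hU, hU' (by simp) (by simp)⟩

end Fermat.Agent.S26.H925
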